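import Fermat.Agent.FlatT.Final
import Fermat.Agent.Tate.Package
import Fermat.Agent.Cusps.GenusFinal
import Fermat.Agent.FlatJ.JFlat

/-!
The levels of the Tate module of `J₀(N)` are finite flat at primes not dividing `N`.
-/

set_option autoImplicit false
set_option linter.unusedSectionVars false

noncomputable section

open Module GaloisRep Fermat.Agent.HopfOrder IsLocalRing Polynomial
open scoped TensorProduct

namespace Fermat.Agent.FlatT

open Fermat.Agent.HGModule Fermat.Agent.Tate Fermat.Agent.FlatJ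

section

variable {p : ℕ} [Fact p.Prime] {N : ℕ} [NeZero N] {S : Set ℕ} (I : TateInput p N S)

theorem exists_smul_of_comp_eq_zero (m : ℕ) (x : Lam I.toModule) (hx : I.comp m x = 0) :
    ∃ y : Lam I.toModule, (p : ℤ_[p]) ^ m • y = x := by
  obtain ⟨ψ, hψ⟩ := exists_eq_smul_of_pr_eq_zero I.C (TateInput.Lam p N) I.mem_iff
    TateInput.saturated m (TateInput.iso p N x) (Subtype.ext hx)
  refine ⟨(TateInput.iso p N).symm ψ, (TateInput.iso p N).injective ?_⟩
  refine (map_smul (TateInput.iso p N) _ _).trans ?_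
  rw [LinearEquiv.apply_symm_apply]
  exact hψ.symm

theorem comp_torsion (m : ℕ) (x : Lam I.toModule) : p ^ m • (I.comp m x : I.J) = 0 :=
  I.prj_torsion m _

/-- The component map with values in the torsion. -/
def compT (m : ℕ) : Lam I.toModule →+ Submodule.torsionBy ℤ I.J ((p ^ m : ℕ) : ℤ) where
  toFun x := ⟨I.comp m x, by
    rw [Submodule.mem_torsionBy_iff, natCast_zsmul]
    exact comp_torsion I m x⟩
  map_zero' := Subtype.ext (map_zero (I.comp m))
  map_add' x y := Subtype.ext (map_add (I.comp m) x y)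

theorem compT_ker (m : ℕ) : (lamSub I.toModule m).toAddSubgroup ≤ (compT I m).ker := by
  rintro _ ⟨y, rfl⟩
  refine AddMonoidHom.mem_ker.2 (Subtype.ext ?_)
  change I.comp m ((p : ℤ_[p]) ^ m • y) = 0
  have h1 : ((p : ℤ_[p]) ^ m • y : Lam I.toModule) = p ^ m • y := by
    rw [← Nat.cast_pow, Nat.cast_smul_eq_nsmul]
  rw [h1]
  exact (map_nsmul (I.comp m) (p ^ m) y).trans (comp_torsion I m y)

/-- The embedding of the level in the torsion of the Jacobian. -/
def levEmb (m : ℕ) : Lev I.toModule m →+ Submodule.torsionBy ℤ I.J ((p ^ m : ℕ) : ℤ) :=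
  QuotientAddGroup.lift (lamSub I.toModule m).toAddSubgroup (compT I m) (compT_ker I m)

theorem levEmb_mkL (m : ℕ) (x : Lam I.toModule) :
    (levEmb I m (mkL I.toModule m x) : I.J) = I.comp m x := rfl

theorem levEmb_injective (m : ℕ) : Function.Injective (levEmb I m) := by
  rw [injective_iff_map_eq_zero]
  intro x hx
  obtain ⟨x, rfl⟩ := mkL_surjective I.toModule m x
  rw [mkL_eq_zero]
  exact exists_smul_of_comp_eq_zero I m x (congrArg Subtype.val hx)

theorem finite_lev (m : ℕ)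
    (hfin : Finite (Submodule.torsionBy ℤ I.J ((p ^ m : ℕ) : ℤ))) :
    Finite (Lev I.toModule m) :=
  Finite.of_injective _ (levEmb_injective I m)

theorem isFlatMod_lev (m : ℕ) [hfin : Finite (Submodule.torsionBy ℤ I.J ((p ^ m : ℕ) : ℤ))]
    (hflat : letI := torsionAction GQ I.J ((p ^ m : ℕ) : ℤ)
      IsFlatMod p (Submodule.torsionBy ℤ I.J ((p ^ m : ℕ) : ℤ))) :
    @IsFlatMod p (Lev I.toModule m) _ (actOf (gLev I.toModule m)) := by
  letI := torsionAction GQ I.J ((p ^ m : ℕ) : ℤ)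
  letI := actOf (gLev I.toModule m)
  have h := finite_lev I m hfin
  refine hflat.of_injective (levEmb I m) (levEmb_injective I m) ?_
  intro g x
  obtain ⟨x, rfl⟩ := mkL_surjective I.toModule m x
  exact Subtype.ext (I.comp_rho g m x)

end

/-- The Tate input of `J₀(N)`. -/
def jIn (N : ℕ) [NeZero N] (p : ℕ) [Fact p.Prime] (S : Set ℕ)
    (hS : ∀ q : ℕ, q.Prime → q ∣ N → q ∈ S) : TateInput p N S :=
  jInput N p S hS (frobJ_of_packages (hasPackages_of_genusEq (Cusps.genusEq N)))
    (unrJ_of_packages (hasPackages_of_genusEq (Cusps.genusEq N)))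

theorem finite_jIn (N : ℕ) [NeZero N] (p : ℕ) [hp : Fact p.Prime] (S : Set ℕ)
    (hS : ∀ q : ℕ, q.Prime → q ∣ N → q ∈ S) (m : ℕ) :
    Finite (Submodule.torsionBy ℤ (jIn N p S hS).J ((p ^ m : ℕ) : ℤ)) :=
  finite_torsionBy (K := AlgebraicClosure ℚ) (F := ModularCurve.modularFunctionFieldBar N)
    (pow_pos hp.out.pos m)

theorem isFlatMod_jIn (N : ℕ) [NeZero N] (p : ℕ) [hp : Fact p.Prime] (hpN : ¬ p ∣ N) (S : Set ℕ)
    (hS : ∀ q : ℕ, q.Prime → q ∣ N → q ∈ S) (m : ℕ) :
    @IsFlatMod p (Lev (jIn N p S hS).toModule m) _ (actOf (gLev (jIn N p S hS).toModule m)) := by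
  have h1 := finite_jIn N p S hS m
  exact isFlatMod_lev (jIn N p S hS) m (isFlatMod_JZero N p hpN (pow_pos hp.out.pos m))

theorem isAddTorsionFree_heckeAlgebra (N : ℕ) [NeZero N] (S : Set ℕ) :
    IsAddTorsionFree (CuspForm.heckeAlgebra N 2 S) := by
  refine ⟨fun n hn x y hxy => Subtype.ext ?_⟩
  have h1 : n • (x : Module.End ℂ (CuspForm (CongruenceSubgroup.Gamma0 N) 2)) = n • y.1 :=
    congrArg Subtype.val hxy
  refine LinearMap.ext fun f => ?_
  have h2 := congrArg (fun g : Module.End ℂ (CuspForm (CongruenceSubgroup.Gamma0 N) 2) => g f) h1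
  simp only [LinearMap.smul_apply] at h2
  rw [← Nat.cast_smul_eq_nsmul ℂ, ← Nat.cast_smul_eq_nsmul ℂ] at h2
  exact smul_right_injective _ (Nat.cast_ne_zero.2 hn) h2

theorem residue_map_surjective {𝒪 T : Type} [CommRing 𝒪] [IsLocalRing 𝒪] [CommRing T]
    [IsLocalRing T] [Algebra 𝒪 T] [IsLocalHom (algebraMap 𝒪 T)]
    (h : Function.Surjective (residue T ∘ algebraMap 𝒪 T)) :
    Function.Surjective (ResidueField.map (algebraMap 𝒪 T)) := by
  intro y
  obtain ⟨x, hx⟩ := h y
  exact ⟨residue 𝒪 x, hx⟩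

end Fermat.Agent.FlatT
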