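import Fermat.Agent.FlatT.LevRep
import Fermat.Agent.EFlat.Final
import Fermat.Agent.ZEC.Line
import Fermat.Agent.DefRing.Slice

/-!
Flatness of the `p`-adic representation of an elliptic curve with good reduction at `p`.
-/

set_option autoImplicit false
set_option linter.unusedSectionVars false

noncomputable section

open Module GaloisRep Fermat.Agent.HopfOrder IsLocalRing Matrix

namespace Fermat.Agent.FlatT

open Fermat.Agent.DefRing (M2 MatCont mapRep mapRep_apply ofMat matOf Red conjRep conjRep_apply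
  conjRep_conj)
open Fermat.Agent.ERep Fermat.Agent.Tate
open WeierstrassCurve WeierstrassCurve.Affine WeierstrassCurve.Affine.Point

local notation "Qb" => AlgebraicClosure ℚ

section Conj

variable {p : ℕ} [hp : Fact p.Prime] {T : Type} [CommRing T]

/-- Flatness is invariant under conjugation. -/
theorem FlatRep.conj {r : GQ →* M2 T} (h : FlatRep p T r) (u : (M2 T)ˣ) :
    FlatRep p T (conjRep u r) := by
  intro B _ _ φ
  have h1 := h B φ
  let _ := matAct (mapRep φ (conjRep u r))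
  let act2 := matAct (mapRep φ r)
  let U : M2 B := (u : M2 T).map φ
  let V : M2 B := ((u⁻¹ : (M2 T)ˣ) : M2 T).map φ
  have hUV : U * V = 1 := by
    have h2 := congrArg (fun X : M2 T => X.map φ) (Units.mul_inv u)
    simp only [Matrix.map_mul] at h2
    rw [Matrix.map_one φ (map_zero φ) (map_one φ)] at h2
    exact h2
  have hint : ∀ σ, V * mapRep φ (conjRep u r) σ = mapRep φ r σ * V := by
    intro σ
    have h2 : ((u⁻¹ : (M2 T)ˣ) : M2 T) * conjRep u r σ = r σ * ((u⁻¹ : (M2 T)ˣ) : M2 T) := by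
      rw [conjRep_apply, ← mul_assoc, ← mul_assoc, Units.inv_mul, one_mul]
    have h3 := congrArg (fun X : M2 T => X.map φ) h2
    simp only [Matrix.map_mul] at h3
    exact h3
  refine @IsFlatMod.of_injective p _ (Fin 2 → B) (Fin 2 → B) _ _ act2
    (matAct (mapRep φ (conjRep u r))) h1 (Matrix.toLin' V).toAddMonoidHom ?_ ?_
  · refine Function.LeftInverse.injective (g := fun v => U *ᵥ v) fun v => ?_
    change U *ᵥ (V *ᵥ v) = v
    rw [mulVec_mulVec, hUV, one_mulVec]
  · intro σ v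
    change V *ᵥ (mapRep φ (conjRep u r) σ *ᵥ v) = mapRep φ r σ *ᵥ (V *ᵥ v)
    rw [mulVec_mulVec, mulVec_mulVec, hint]

end Conj

variable (E : WeierstrassCurve ℚ) [E.IsElliptic] (p : ℕ) [hp : Fact p.Prime]
  {W : WeierstrassCurve ℤ} (hWE : W.IsIntegralModelOf E) (hpΔ : ¬ (p : ℤ) ∣ W.Δ)

/-- The matrix form of the representation. -/
def matE : GQ →* M2 ℤ_[p] :=
  ((LinearMap.toMatrixAlgEquiv' : Module.End ℤ_[p] (Fin 2 → ℤ_[p]) ≃ₐ[ℤ_[p]] M2 ℤ_[p]) :
    Module.End ℤ_[p] (Fin 2 → ℤ_[p]) →* M2 ℤ_[p]).comp (repE E p)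

theorem matE_mulVec (σ : GQ) (v : Fin 2 → ℤ_[p]) : matE E p σ *ᵥ v = repE E p σ v := by
  change LinearMap.toMatrix' (repE E p σ) *ᵥ v = _
  rw [← Matrix.toLin'_apply, Matrix.toLin'_toMatrix']

include hWE hpΔ in
/-- **Flatness of the representation of an elliptic curve at the primes of good reduction.** -/
theorem flatRep_matE : FlatRep p ℤ_[p] (matE E p) := by
  intro B _ _ φ
  let I : Ideal ℤ_[p] := RingHom.ker φ
  have hI : Finite (ℤ_[p] ⧸ I) := Finite.of_injective _ (RingHom.kerLift_injective φ)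
  obtain ⟨n, hn⟩ := pow_mem_of_finite_quotient (p_mem p) I
  obtain ⟨θ, hθ⟩ := ZEC.exists_iso E hWE
  have hell : (W.map (Int.castRingHom ℚ)).IsElliptic :=
    ⟨(isUnit_iff_ne_zero.2 (EFlat.Δ_ne_zero' W hpΔ))⟩
  have hfin := EFlat.finite_torsion (W.map (Int.castRingHom ℚ)) (pow_pos hp.out.pos n)
  have hM := EFlat.isFlatMod_torsion W hpΔ (pow_pos hp.out.pos n)
  have hθ' : ∀ (σ : GQ) P, θ.symm (σ • P) = σ • θ.symm P := by
    intro σ P
    apply θ.injective
    rw [AddEquiv.apply_symm_apply, ← hθ, AddEquiv.apply_symm_apply]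
  let ψ : (Fin 2 → ℤ_[p]) →+
      Submodule.torsionBy ℤ ((W.map (Int.castRingHom ℚ))⁄Qb).Point ((p ^ n : ℕ) : ℤ) :=
    AddMonoidHom.mk' (fun v => ⟨θ.symm ((tb E p).pr n v : (E⁄Qb).Point), by
      rw [Submodule.mem_torsionBy_iff, ← map_zsmul, natCast_zsmul,
        (mem_tor p).1 ((tb E p).pr n v).2, _root_.map_zero]⟩) fun v w => by
      apply Subtype.ext
      change θ.symm ((tb E p).pr n (v + w) : (E⁄Qb).Point) = _
      rw [map_add, AddSubgroup.coe_add, map_add]
      rfl
  refine isFlatMod_of_ker (matE E p) φ hM ψ ?_ ?_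
  · intro σ v
    apply Subtype.ext
    change θ.symm ((tb E p).pr n (matE E p σ *ᵥ v) : (E⁄Qb).Point) =
      σ • θ.symm ((tb E p).pr n v : (E⁄Qb).Point)
    rw [matE_mulVec, pr_repE, hθ']
  · intro v hv i
    have h1 : θ.symm ((tb E p).pr n v : (E⁄Qb).Point) = 0 := congrArg Subtype.val hv
    rw [map_eq_zero_iff _ θ.symm.injective] at h1
    obtain ⟨w, hw⟩ := ((tb E p).pr_eq_zero_iff n v).1 (Subtype.ext h1)
    rw [hw, Pi.smul_apply, smul_eq_mul, map_mul]
    have h2 : φ ((p : ℤ_[p]) ^ n) = 0 := hn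
    rw [h2, zero_mul]

include hWE hpΔ in
theorem levFlat_repE : LevFlat p (repE E p) := by
  refine FlatRep.levFlat (Pi.basisFun ℤ_[p] (Fin 2)) (flatRep_matE E p hWE hpΔ) fun σ j i => ?_
  rw [Pi.basisFun_repr, Pi.basisFun_apply, ← matE_mulVec, mulVec_single_one]
  rfl

include hWE hpΔ in
/-- The Tate module of `E` is flat at the primes of good reduction. -/
theorem isFlatAt_adicE : (adicE E p).IsFlatAt p :=
  LevFlat.isFlatAt (adicE E p) (levFlat_repE E p hWE hpΔ) (by
    have h1 : Finite (ZMod p) := inferInstance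
    exact Finite.of_equiv _ (PadicInt.residueField (p := p)).symm.toEquiv)

include hWE hpΔ in
/-- The matrix representation in any basis, after any base change and conjugation. -/
theorem flatRep_adicE (b : Basis (Fin 2) ℤ_[p] (adicE E p).V) {T : Type} [CommRing T]
    (f : ℤ_[p] →+* T) : FlatRep p T (mapRep f (matOf (adicE E p) b)) :=
  (LevFlat.flatRep_matOf (levFlat_repE E p hWE hpΔ) b).map f

end Fermat.Agent.FlatT
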