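import Mathlib

/-!
A faithful lattice over a reduced order has a functional with a nonzero integral value.
-/

set_option autoImplicit false
set_option linter.unusedSectionVars false

open Module
open scoped nonZeroDivisors

namespace Fermat.Agent.FlatT

/-- An element with trivial annihilator. -/
theorem exists_annihilator_eq_bot {R H : Type*} [CommRing R] [IsArtinianRing R] [IsReduced R]
    [AddCommGroup H] [Module R H] (hf : ∀ r : R, (∀ h : H, r • h = 0) → r = 0) :
    ∃ h : H, Function.Injective (LinearMap.toSpanSingleton R H h) := by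
  have hss : IsSemisimpleRing R := IsArtinianRing.isSemisimpleRing_of_isReduced R
  obtain ⟨A, ⟨h, rfl⟩, hmin⟩ := IsArtinian.set_has_minimal
    (Set.range fun h : H => LinearMap.ker (LinearMap.toSpanSingleton R H h)) ⟨_, ⟨0, rfl⟩⟩
  refine ⟨h, LinearMap.ker_eq_bot.1 ?_⟩
  have hmemA : ∀ (x : H) (r : R), r ∈ LinearMap.ker (LinearMap.toSpanSingleton R H x) ↔
      r • x = 0 := fun x r => Iff.rfl
  obtain ⟨e, he, hA⟩ := IsSemisimpleRing.ideal_eq_span_idempotent
    (LinearMap.ker (LinearMap.toSpanSingleton R H h) : Ideal R)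
  by_contra hne
  have heA : e ∈ LinearMap.ker (LinearMap.toSpanSingleton R H h) := by
    rw [hA]; exact Ideal.mem_span_singleton_self e
  have heh : e • h = 0 := (hmemA h e).1 heA
  have he0 : e ≠ 0 := by
    rintro rfl
    apply hne
    rw [hA]
    simp
  obtain ⟨h', hh'⟩ : ∃ h' : H, e • h' ≠ 0 := by
    by_contra hcon
    push Not at hcon
    exact he0 (hf e hcon)
  refine hmin (LinearMap.ker (LinearMap.toSpanSingleton R H (h + e • h'))) ⟨_, rfl⟩ ?_
  refine lt_of_le_of_ne ?_ ?_
  · intro r hr
    rw [hmemA] at hr ⊢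
    rw [smul_add] at hr
    have h1 : (1 - e) • (r • h + r • e • h') = r • h := by
      rw [smul_add, sub_smul, sub_smul, one_smul, one_smul, smul_comm e r h, heh, smul_zero,
        sub_zero, smul_comm e r (e • h'), smul_smul e e, he.eq, sub_self, add_zero]
    rw [← h1, hr, smul_zero]
  · intro heq
    have h1 : e ∈ LinearMap.ker (LinearMap.toSpanSingleton R H (h + e • h')) := by
      rw [heq]; exact heA
    rw [hmemA, smul_add, heh, zero_add, smul_smul, he.eq] at h1
    exact hh' h1

/-- A functional on a faithful lattice over a reduced order. -/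
theorem exists_functional {R H : Type} [CommRing R] [IsReduced R] [Module.Finite ℤ R]
    [IsAddTorsionFree R] [AddCommGroup H] [Module R H] [Module.Finite ℤ H] [IsAddTorsionFree H]
    (hf : ∀ r : R, (∀ h : H, r • h = 0) → r = 0) :
    ∃ (ψ : H →ₗ[R] R) (h₀ : H) (d : ℤ), d ≠ 0 ∧ ψ h₀ = (d : R) := by
  let S : Submonoid R := Algebra.algebraMapSubmonoid R ℤ⁰
  have hS : ∀ s ∈ S, ∃ n : ℤ, n ≠ 0 ∧ (n : R) = s := by
    rintro _ ⟨n, hn, rfl⟩
    exact ⟨n, nonZeroDivisors.ne_zero hn, by simp⟩
  have hSH : ∀ s ∈ S, ∀ h : H, s • h = 0 → h = 0 := by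
    intro s hs h hh
    obtain ⟨n, hn, rfl⟩ := hS s hs
    rw [Int.cast_smul_eq_zsmul] at hh
    exact (smul_eq_zero_iff_right hn).1 hh
  have hSR : ∀ s ∈ S, ∀ r : R, s * r = 0 → r = 0 := by
    intro s hs r hh
    obtain ⟨n, hn, rfl⟩ := hS s hs
    rw [← zsmul_eq_mul] at hh
    exact (smul_eq_zero_iff_right hn).1 hh
  have hfin : Module.Finite (FractionRing ℤ) (Localization S) := inferInstance
  have hart : IsArtinianRing (Localization S) := IsArtinianRing.of_finite (FractionRing ℤ) _
  have hred : IsReduced (Localization S) :=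
    isReduced_localizationPreserves S (Localization S) inferInstance
  have hss : IsSemisimpleRing (Localization S) := IsArtinianRing.isSemisimpleRing_of_isReduced _
  have hinjR : Function.Injective (algebraMap R (Localization S)) := by
    refine IsLocalization.injective (M := S) _ fun s hs => ?_
    rw [mem_nonZeroDivisors_iff_right]
    intro x hx
    exact hSR s hs x (by rw [mul_comm]; exact hx)
  -- the localized module is faithful
  have hf' : ∀ r : Localization S, (∀ h : LocalizedModule S H, r • h = 0) → r = 0 := by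
    intro r hr
    obtain ⟨a, s, rfl⟩ := IsLocalization.exists_mk'_eq S r
    have ha : a = 0 := by
      refine hf a fun h => ?_
      have h1 := hr (LocalizedModule.mk h 1)
      rw [← Localization.mk_eq_mk', LocalizedModule.mk_smul_mk, ← LocalizedModule.zero_mk 1,
        LocalizedModule.mk_eq] at h1
      obtain ⟨u, hu⟩ := h1
      simp only [smul_zero, one_smul, mul_one] at hu
      exact hSH u u.2 _ hu
    rw [ha, IsLocalization.mk'_zero]
  obtain ⟨x, hx⟩ := exists_annihilator_eq_bot hf'
  have hssM : IsSemisimpleModule (Localization S) (LocalizedModule S H) := inferInstance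
  obtain ⟨Ψ, hΨ⟩ := IsSemisimpleModule.extension_property _ hx
    (LinearMap.id : Localization S →ₗ[Localization S] Localization S)
  have hΨx : Ψ x = 1 := by
    have h1 := congrArg (fun f => f 1) hΨ
    simpa using h1
  -- denominators
  have hfinR : Module.Finite R H := Module.Finite.of_restrictScalars_finite ℤ R H
  have hnoeth : IsNoetherianRing R := IsNoetherianRing.of_finite ℤ R
  have hfp : Module.FinitePresentation R H := Module.finitePresentation_of_finite R H
  obtain ⟨ψ, s, hψ⟩ := Module.FinitePresentation.exists_lift_of_isLocalizedModule S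
    (Algebra.linearMap R (Localization S))
    ((Ψ.restrictScalars R).comp (LocalizedModule.mkLinearMap S H))
  obtain ⟨⟨h₀, t⟩, hx'⟩ : ∃ z : H × S, LocalizedModule.mk z.1 z.2 = x := by
    induction x using LocalizedModule.induction_on with
    | _ m s => exact ⟨(m, s), rfl⟩
  obtain ⟨n, hn, hns⟩ := hS s s.2
  obtain ⟨k, hk, hkt⟩ := hS t t.2
  refine ⟨ψ, h₀, n * k, mul_ne_zero hn hk, hinjR ?_⟩
  have h1 := congrArg (fun f => f h₀) hψ
  have h2 : LocalizedModule.mk h₀ (1 : S) = (algebraMap R (Localization S) t) • x := by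
    rw [← hx', ← Localization.mk_one_eq_algebraMap, LocalizedModule.mk_smul_mk, one_mul,
      LocalizedModule.mk_eq]
    exact ⟨1, by simp [Submonoid.smul_def]⟩
  have h3 : algebraMap R (Localization S) (ψ h₀) =
      (s : R) • Ψ (LocalizedModule.mk h₀ (1 : S)) := h1
  rw [h3, h2, map_smul, hΨx, smul_eq_mul, mul_one, Algebra.smul_def, ← map_mul, ← hns, ← hkt]
  push_cast
  rfl

end Fermat.Agent.FlatT
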