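import Fermat.Agent.FlatT.Pairing
import Fermat.Agent.HeckeGal.Burnside
import Fermat.Prelude.Def_CuspForm_HeckeGaloisRepDatum

/-!
Flatness at `p` of the universal modular Galois representation, from the flatness of the levels
of a Hecke-Galois module.
-/

set_option autoImplicit false
set_option linter.unusedSectionVars false

noncomputable section

open Module GaloisRep Fermat.Agent.HopfOrder IsLocalRing Polynomial
open scoped TensorProduct

namespace Fermat.Agent.FlatT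

open Fermat.Agent.HGModule

theorem isFlatAt_of_levels {p : ℕ} [hp : Fact p.Prime] (hp2 : p ≠ 2) {N : ℕ} [NeZero N]
    {S : Finset ℕ}
    (D : HeckeGaloisModule p N (↑S : Set ℕ))
    (hfinL : ∀ m : ℕ, Finite (Lev D m))
    (hflatL : ∀ m : ℕ, @IsFlatMod p (Lev D m) _ (actOf (gLev D m)))
    {𝒪 : Type} [CommRing 𝒪] [IsDomain 𝒪] [IsDiscreteValuationRing 𝒪]
    [IsAdicComplete (maximalIdeal 𝒪) 𝒪] [Finite (ResidueField 𝒪)] [CharZero 𝒪]
    {T : Type} [CommRing T] [IsLocalRing T]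
    [IsAdicComplete (maximalIdeal T) T] [Algebra 𝒪 T] [IsLocalHom (algebraMap 𝒪 T)]
    [Module.Finite 𝒪 T] [Module.Free 𝒪 T]
    [IsReduced (CuspForm.heckeAlgebra N 2 (↑S : Set ℕ))]
    [Module.Finite ℤ (CuspForm.heckeAlgebra N 2 (↑S : Set ℕ))]
    [IsAddTorsionFree (CuspForm.heckeAlgebra N 2 (↑S : Set ℕ))]
    (hp𝒪 : (p : 𝒪) ∈ maximalIdeal 𝒪) (hpS : p ∈ S) (hNS : ∀ q : ℕ, q.Prime → q ∣ N → q ∈ S)
    (hres : Finite (ResidueField T))
    (π : CuspForm.heckeAlgebra N 2 (↑S : Set ℕ) →+* T)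
    (ρ : GaloisRepAdic T)
    (hchar : ∀ (ℓ : ℕ) (hℓ : ℓ.Prime) (hℓN : ¬ ℓ ∣ N) (hℓS : ℓ ∉ (↑S : Set ℕ)),
      ∀ A : ValuationSubring (AlgebraicClosure ℚ), A.LiesOverPrime ℓ →
      ∀ σ : AlgebraicClosure ℚ ≃ₐ[ℚ] AlgebraicClosure ℚ, A.IsFrobeniusAt σ ℓ →
        LinearMap.charpoly (ρ.ρ σ) =
          X ^ 2 - C (π (CuspForm.heckeAlgebra.T hℓ hℓN hℓS)) * X + C ((ℓ : T)))
    (hirr : ρ.residual.IsAbsolutelyIrreducible) :
    ρ.IsFlatAt p := by
  refine ⟨hres, fun I hI => ?_⟩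
  letI alg : Algebra (CuspForm.heckeAlgebra N 2 (↑S : Set ℕ)) T := π.toAlgebra
  have hpT : (p : T) ∈ maximalIdeal T := by
    rw [← map_natCast (algebraMap 𝒪 T), mem_maximalIdeal]
    intro hu
    exact hp𝒪 (isUnit_of_map_unit _ _ hu)
  have htf : IsAddTorsionFree T := by
    refine ⟨fun n hn x y hxy => ?_⟩
    have h1 : Module.IsTorsionFree 𝒪 T := inferInstance
    have h2 : (n : 𝒪) • x = (n : 𝒪) • y := by
      rw [Nat.cast_smul_eq_nsmul, Nat.cast_smul_eq_nsmul]; exact hxy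
    exact smul_right_injective T (Nat.cast_ne_zero.2 hn) h2
  obtain ⟨k, hk⟩ := pow_mem_of_finite_quotient hpT I
  obtain ⟨ψ, h₀, d, hd0, hψ, hd⟩ := exists_functional_hecke D
  obtain ⟨c, u, hu, hcu⟩ : ∃ (c : ℕ) (u : ℤ), ¬ (p : ℤ) ∣ u ∧ d = (p : ℤ) ^ c * u := by
    obtain ⟨u, h1, h2⟩ := (Int.finiteMultiplicity_iff.2
      ⟨by rw [Int.natAbs_natCast]; exact hp.out.ne_one, hd0⟩ :
        FiniteMultiplicity (p : ℤ) d).exists_eq_pow_mul_and_not_dvd
    exact ⟨_, u, h2, h1⟩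
  have hfinT := finite_quotient_span_pow' (𝒪 := 𝒪) (T := T) hp.out (c + k)
  have hfinM := hfinL (c + k)
  have hkill := pow_smul_lev D (c + k)
  have hfinX : Finite (T ⊗[CuspForm.heckeAlgebra N 2 (↑S : Set ℕ)] Lev D (c + k)) :=
    finite_tensor p (c + k) hkill
  have hflatX := isFlatMod_tensor (T := T) p (c + k) hkill (gLev D (c + k)) (hflatL (c + k))
  obtain ⟨α, x₀, hα⟩ := exists_alpha D hpT ψ hψ h₀ hd (c + k)
  have hann : Module.annihilator T (T ⊗[CuspForm.heckeAlgebra N 2 (↑S : Set ℕ)] Lev D (c + k)) ≤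
      I := by
    intro t ht
    have h1 := annihilator_tensor _ α x₀ d hα ht
    rw [hcu] at h1
    have h2 := mem_span_of_mul_mem hp.out hpT hu rfl h1
    exact (Ideal.span_singleton_le_iff_mem I).2 hk h2
  obtain ⟨n, hn⟩ := exists_pow_smul_eq_bot (T := T)
    (X := T ⊗[CuspForm.heckeAlgebra N 2 (↑S : Set ℕ)] Lev D (c + k))
  have hrel := fun g => relation (gLev D (c + k)) ρ S (gLev_cont D (c + k))
    (fun ℓ hℓ hℓS => ⟨CuspForm.heckeAlgebra.T hℓ (fun h => hℓS (hNS ℓ hℓ h))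
      (fun h => hℓS (Finset.mem_coe.1 h)), fun P hP τ hτ =>
      ⟨gLev_frob D (c + k) ℓ hℓ _ _ (fun h => hℓS (h ▸ hpS)) P hP τ hτ,
        hchar ℓ hℓ _ _ P hP τ hτ⟩⟩) n hn g
  have hspan := HeckeGal.span_range_eq_top ρ hirr
  have h2 : ∀ x : T ⊗[CuspForm.heckeAlgebra N 2 (↑S : Set ℕ)] Lev D (c + k),
      x + x = 0 → x = 0 := by
    intro x hx
    obtain ⟨w, hw⟩ := isUnit_of_coprime hp.out hpT (u := 2) (fun h => hp2 (by
      have h3 : p ∣ 2 := by exact_mod_cast h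
      exact (Nat.prime_dvd_prime_iff_eq hp.out Nat.prime_two).1 h3))
    rw [← two_smul T x] at hx
    have h4 : (w : T) • x = 0 := by rw [hw, Int.cast_ofNat]; exact hx
    have h5 := congrArg (fun y => (↑w⁻¹ : T) • y) h4
    simpa [smul_smul] using h5
  have b : Basis (Fin 2) T ρ.V := (Module.finBasis T ρ.V).reindex (finCongr ρ.finrank_eq)
  obtain ⟨Ψ, hΨ⟩ := exists_lift b ρ.ρ (bcHom T (gLev D (c + k)))
    ((LinearMap.det (M := ρ.V) (A := T)).comp ρ.ρ) hspan hrel h2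
  have hmain := isFlatMod_quot b ρ.ρ (I • (⊤ : Submodule T ρ.V)) (level_stable ρ I)
    (bcHom T (gLev D (c + k))) hflatX (Submodule.smul_mono_left hann) Ψ hΨ
  have hfinV : Finite (ρ.V ⧸ (I • (⊤ : Submodule T ρ.V))) :=
    Submodule.finite_quotient_smul I Module.Finite.fg_top
  letI := actOf (quotHom ρ.ρ (I • (⊤ : Submodule T ρ.V)) (level_stable ρ I))
  exact hmain.exists_hopfAlgebra

end Fermat.Agent.FlatT
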