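import Fermat.Agent.FlatT.HeckeRep
import Fermat.Agent.FlatT.ECurve
import Fermat.Agent.RTan.FlatM

/-!
Comparison of `FlatRep` with the flatness predicate `RTan.FlatM`.
-/

set_option autoImplicit false
set_option linter.unusedSectionVars false

noncomputable section

open Module GaloisRep Fermat.Agent.HopfOrder IsLocalRing Matrix

namespace Fermat.Agent.FlatT

open Fermat.Agent.DefRing (M2 MatCont mapRep mapRep_apply ofMat matOf Red conjRep)
open Fermat.Agent.RTan (FlatM FlatLev)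
open Fermat.Agent.ERep

variable {p : ℕ} [hp : Fact p.Prime]

theorem FlatRep.flatLev {T : Type} [CommRing T] {r : GQ →* M2 T} (h : FlatRep p T r) (I : Ideal T)
    (hI : Finite (T ⧸ I)) : FlatLev p r I := by
  refine ⟨Fin 2 → T ⧸ I, inferInstance, inferInstance, matAct (mapRep (Ideal.Quotient.mk I) r),
    AddMonoidHom.mk' (fun v i => Ideal.Quotient.mk I (v i)) (fun v w => by
      funext i
      exact map_add (Ideal.Quotient.mk I) _ _), h _ _, ?_, ?_⟩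
  · intro σ v
    change (fun i => Ideal.Quotient.mk I ((r σ *ᵥ v) i)) =
      (mapRep (Ideal.Quotient.mk I) r σ *ᵥ fun i => Ideal.Quotient.mk I (v i))
    funext i
    simp only [mulVec, dotProduct, Fin.sum_univ_two, map_add, map_mul, mapRep_apply]
  · intro v hv i
    exact Ideal.Quotient.eq_zero_iff_mem.1 (congrFun hv i)

/-- `FlatRep` implies `FlatM`. -/
theorem FlatRep.flatM {T : Type} [CommRing T] {r : GQ →* M2 T} (h : FlatRep p T r)
    (𝒪 : Type) [CommRing 𝒪] [IsLocalRing 𝒪] [IsNoetherianRing 𝒪] [Finite (ResidueField 𝒪)]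
    [Algebra 𝒪 T] [Module.Finite 𝒪 T] : FlatM p 𝒪 r := by
  intro n
  refine h.flatLev _ ?_
  have h0 : Finite (𝒪 ⧸ maximalIdeal 𝒪) := ‹Finite (ResidueField 𝒪)›
  have h1 : Finite (𝒪 ⧸ maximalIdeal 𝒪 ^ n) :=
    Ideal.finite_quotient_pow (IsNoetherian.noetherian _) n
  have h2 : Finite (T ⧸ (maximalIdeal 𝒪 ^ n • (⊤ : Submodule 𝒪 T))) :=
    Submodule.finite_quotient_smul _ Module.Finite.fg_top
  refine Finite.of_surjective (fun y : T ⧸ (maximalIdeal 𝒪 ^ n • (⊤ : Submodule 𝒪 T)) =>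
    Ideal.Quotient.mk ((maximalIdeal 𝒪 ^ n).map (algebraMap 𝒪 T)) (Quotient.out y)) ?_
  intro y
  obtain ⟨x, rfl⟩ := Ideal.Quotient.mk_surjective y
  refine ⟨Submodule.Quotient.mk x, ?_⟩
  rw [Ideal.Quotient.eq]
  have h3 : (Submodule.Quotient.mk (Quotient.out
      (Submodule.Quotient.mk x : T ⧸ (maximalIdeal 𝒪 ^ n • (⊤ : Submodule 𝒪 T)))) :
      T ⧸ (maximalIdeal 𝒪 ^ n • (⊤ : Submodule 𝒪 T))) = Submodule.Quotient.mk x :=
    Quotient.out_eq' _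
  have h4 : ∀ z ∈ (maximalIdeal 𝒪 ^ n • (⊤ : Submodule 𝒪 T)),
      z ∈ (maximalIdeal 𝒪 ^ n).map (algebraMap 𝒪 T) := by
    intro z hz
    rw [Ideal.smul_top_eq_map] at hz
    exact hz
  exact h4 _ ((Submodule.Quotient.eq _).1 h3)

/-- `FlatM` implies `FlatRep`. -/
theorem flatRep_of_flatM {T : Type} [CommRing T] [IsLocalRing T] {r : GQ →* M2 T}
    (𝒪 : Type) [CommRing 𝒪] [IsLocalRing 𝒪] [Algebra 𝒪 T] [IsLocalHom (algebraMap 𝒪 T)]
    (h : FlatM p 𝒪 r) : FlatRep p T r := by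
  intro B _ _ φ
  obtain ⟨n, hn⟩ : ∃ n : ℕ, (maximalIdeal 𝒪 ^ n).map (algebraMap 𝒪 T) ≤ RingHom.ker φ := by
    have hfin : Finite (T ⧸ RingHom.ker φ) := Finite.of_injective _ (RingHom.kerLift_injective φ)
    obtain ⟨n, hn⟩ := exists_pow_smul_eq_bot (T := T) (X := T ⧸ RingHom.ker φ)
    refine ⟨n, Ideal.map_le_iff_le_comap.2 fun o ho => ?_⟩
    have h1 : algebraMap 𝒪 T o ∈ maximalIdeal T ^ n := by
      have h2 := Ideal.mem_map_of_mem (algebraMap 𝒪 T) ho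
      rw [Ideal.map_pow] at h2
      refine Ideal.pow_right_mono (Ideal.map_le_iff_le_comap.2 fun a ha => ?_) n h2
      exact map_nonunit (algebraMap 𝒪 T) a ha
    have h3 := hn _ h1 (Ideal.Quotient.mk _ 1)
    rw [Ideal.mem_comap, ← Ideal.Quotient.eq_zero_iff_mem, ← h3]
    change _ = Ideal.Quotient.mk _ (algebraMap 𝒪 T o * 1)
    rw [mul_one]
  obtain ⟨M, i1, i2, i3, f, h1, h2, h3⟩ := h n
  exact isFlatMod_of_ker r φ h1 f h2 fun v hv i => hn (h3 v hv i)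

/-- The elliptic curve component. -/
theorem flatM_adicE (E : WeierstrassCurve ℚ) [E.IsElliptic] {W : WeierstrassCurve ℤ}
    (hWE : W.IsIntegralModelOf E) (hpΔ : ¬ (p : ℤ) ∣ W.Δ)
    (b : Basis (Fin 2) ℤ_[p] (adicE E p).V) {T : Type} [CommRing T] (f : ℤ_[p] →+* T)
    (u : (M2 T)ˣ) (𝒪 : Type) [CommRing 𝒪] [IsLocalRing 𝒪] [IsNoetherianRing 𝒪]
    [Finite (ResidueField 𝒪)] [Algebra 𝒪 T] [Module.Finite 𝒪 T] :
    FlatM p 𝒪 (conjRep u (mapRep f (matOf (adicE E p) b))) :=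
  ((flatRep_adicE E p hWE hpΔ b f).conj u).flatM 𝒪

/-- The Hecke algebra component. -/
theorem flatM_hecke (hp2 : p ≠ 2) {N : ℕ} [NeZero N]
    (hpN : ¬ p ∣ N) {S : Finset ℕ}
    {𝒪 : Type} [CommRing 𝒪] [IsDomain 𝒪] [IsDiscreteValuationRing 𝒪]
    [IsAdicComplete (maximalIdeal 𝒪) 𝒪] [Finite (ResidueField 𝒪)] [CharZero 𝒪]
    {T : Type} [CommRing T] [IsLocalRing T] [Algebra 𝒪 T] [IsLocalHom (algebraMap 𝒪 T)]
    [Module.Finite 𝒪 T] [Module.Free 𝒪 T]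
    (hp𝒪 : (p : 𝒪) ∈ maximalIdeal 𝒪) (hpS : p ∈ S) (hNS : ∀ q : ℕ, q.Prime → q ∣ N → q ∈ S)
    (π : CuspForm.heckeAlgebra N 2 (↑S : Set ℕ) →+* T)
    {rbar : GQ →* M2 (ResidueField 𝒪)}
    (hspan : Submodule.span (ResidueField 𝒪) (Set.range rbar) = ⊤)
    (r : GQ →* M2 T) (hc : MatCont T r) (hred : Red rbar r) (hatt : TW.IsAtt r π) :
    FlatM p 𝒪 r :=
  (flatRep_hecke hp2 hpN hp𝒪 hpS hNS π hspan r hc hred hatt).flatM 𝒪

end Fermat.Agent.FlatT
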