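import Fermat.Agent.FlatT.LevRep
import Fermat.Agent.FlatT.Concrete
import Fermat.Agent.TW.GlueT
import Fermat.Agent.HeckeGal.S31FromS30

/-!
Flatness of the matrix representation over a Hecke algebra.
-/

set_option autoImplicit false
set_option linter.unusedSectionVars false

noncomputable section

open Module GaloisRep Fermat.Agent.HopfOrder IsLocalRing Polynomial Matrix
open scoped TensorProduct

namespace Fermat.Agent.FlatT

open Fermat.Agent.HGModule
open Fermat.Agent.DefRing (M2 MatCont mapRep mapRep_apply ofMat matOf Red)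

/-- The levels of an adic representation are flat. -/
theorem levFlat_of_levels {p : ℕ} [hp : Fact p.Prime] (hp2 : p ≠ 2) {N : ℕ} [NeZero N]
    {S : Finset ℕ}
    (D : HeckeGaloisModule p N (↑S : Set ℕ))
    (hfinL : ∀ m : ℕ, Finite (Lev D m))
    (hflatL : ∀ m : ℕ, @IsFlatMod p (Lev D m) _ (actOf (gLev D m)))
    {𝒪 : Type} [CommRing 𝒪] [IsDomain 𝒪] [IsDiscreteValuationRing 𝒪]
    [Finite (ResidueField 𝒪)] [CharZero 𝒪]
    {T : Type} [CommRing T] [IsLocalRing T]
    [IsAdicComplete (maximalIdeal T) T] [Algebra 𝒪 T] [IsLocalHom (algebraMap 𝒪 T)]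
    [Module.Finite 𝒪 T] [Module.Free 𝒪 T]
    [IsReduced (CuspForm.heckeAlgebra N 2 (↑S : Set ℕ))]
    [Module.Finite ℤ (CuspForm.heckeAlgebra N 2 (↑S : Set ℕ))]
    [IsAddTorsionFree (CuspForm.heckeAlgebra N 2 (↑S : Set ℕ))]
    (hp𝒪 : (p : 𝒪) ∈ maximalIdeal 𝒪) (hpS : p ∈ S) (hNS : ∀ q : ℕ, q.Prime → q ∣ N → q ∈ S)
    (π : CuspForm.heckeAlgebra N 2 (↑S : Set ℕ) →+* T)
    (ρ : GaloisRepAdic T)
    (hchar : ∀ (ℓ : ℕ) (hℓ : ℓ.Prime) (hℓN : ¬ ℓ ∣ N) (hℓS : ℓ ∉ (↑S : Set ℕ)),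
      ∀ A : ValuationSubring (AlgebraicClosure ℚ), A.LiesOverPrime ℓ →
      ∀ σ : AlgebraicClosure ℚ ≃ₐ[ℚ] AlgebraicClosure ℚ, A.IsFrobeniusAt σ ℓ →
        LinearMap.charpoly (ρ.ρ σ) =
          X ^ 2 - C (π (CuspForm.heckeAlgebra.T hℓ hℓN hℓS)) * X + C ((ℓ : T)))
    (hspan : Submodule.span T (Set.range ρ.ρ) = ⊤) :
    LevFlat p ρ.ρ := by
  intro I hI
  let alg : Algebra (CuspForm.heckeAlgebra N 2 (↑S : Set ℕ)) T := π.toAlgebra
  have hpT : (p : T) ∈ maximalIdeal T := by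
    rw [← map_natCast (algebraMap 𝒪 T), mem_maximalIdeal]
    intro hu
    exact hp𝒪 (isUnit_of_map_unit _ _ hu)
  have htf : IsAddTorsionFree T := by
    refine ⟨fun n hn x y hxy => ?_⟩
    have h1 : Module.IsTorsionFree 𝒪 T := inferInstance
    have h2 : (n : 𝒪) • x = (n : 𝒪) • y := by
      rw [Nat.cast_smul_eq_nsmul, Nat.cast_smul_eq_nsmul]; exact hxy
    exact smul_right_injective T (Nat.cast_ne_zero.2 hn) h2
  obtain ⟨k, hk⟩ := pow_mem_of_finite_quotient hpT I
  obtain ⟨ψ, h₀, d, hd0, hψ, hd⟩ := exists_functional_hecke D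
  obtain ⟨c, u, hu, hcu⟩ : ∃ (c : ℕ) (u : ℤ), ¬ (p : ℤ) ∣ u ∧ d = (p : ℤ) ^ c * u := by
    obtain ⟨u, h1, h2⟩ := (Int.finiteMultiplicity_iff.2
      ⟨by rw [Int.natAbs_natCast]; exact hp.out.ne_one, hd0⟩ :
        FiniteMultiplicity (p : ℤ) d).exists_eq_pow_mul_and_not_dvd
    exact ⟨_, u, h2, h1⟩
  have hfinT := finite_quotient_span_pow' (𝒪 := 𝒪) (T := T) hp.out (c + k)
  have hfinM := hfinL (c + k)
  have hkill := pow_smul_lev D (c + k)
  have hfinX : Finite (T ⊗[CuspForm.heckeAlgebra N 2 (↑S : Set ℕ)] Lev D (c + k)) :=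
    finite_tensor p (c + k) hkill
  have hflatX := isFlatMod_tensor (T := T) p (c + k) hkill (gLev D (c + k)) (hflatL (c + k))
  obtain ⟨α, x₀, hα⟩ := exists_alpha D hpT ψ hψ h₀ hd (c + k)
  have hann : Module.annihilator T (T ⊗[CuspForm.heckeAlgebra N 2 (↑S : Set ℕ)] Lev D (c + k)) ≤
      I := by
    intro t ht
    have h1 := annihilator_tensor _ α x₀ d hα ht
    rw [hcu] at h1
    have h2 := mem_span_of_mul_mem hp.out hpT hu rfl h1
    exact (Ideal.span_singleton_le_iff_mem I).2 hk h2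
  obtain ⟨n, hn⟩ := exists_pow_smul_eq_bot (T := T)
    (X := T ⊗[CuspForm.heckeAlgebra N 2 (↑S : Set ℕ)] Lev D (c + k))
  have hrel := fun g => relation (gLev D (c + k)) ρ S (gLev_cont D (c + k))
    (fun ℓ hℓ hℓS => ⟨CuspForm.heckeAlgebra.T hℓ (fun h => hℓS (hNS ℓ hℓ h))
      (fun h => hℓS (Finset.mem_coe.1 h)), fun P hP τ hτ =>
      ⟨gLev_frob D (c + k) ℓ hℓ _ _ (fun h => hℓS (h ▸ hpS)) P hP τ hτ,
        hchar ℓ hℓ _ _ P hP τ hτ⟩⟩) n hn g
  have h2 : ∀ x : T ⊗[CuspForm.heckeAlgebra N 2 (↑S : Set ℕ)] Lev D (c + k),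
      x + x = 0 → x = 0 := by
    intro x hx
    obtain ⟨w, hw⟩ := isUnit_of_coprime hp.out hpT (u := 2) (fun h => hp2 (by
      have h3 : p ∣ 2 := by exact_mod_cast h
      exact (Nat.prime_dvd_prime_iff_eq hp.out Nat.prime_two).1 h3))
    rw [← two_smul T x] at hx
    have h4 : (w : T) • x = 0 := by rw [hw, Int.cast_ofNat]; exact hx
    have h5 := congrArg (fun y => (↑w⁻¹ : T) • y) h4
    simpa [smul_smul] using h5
  have b : Basis (Fin 2) T ρ.V := (Module.finBasis T ρ.V).reindex (finCongr ρ.finrank_eq)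
  obtain ⟨Ψ, hΨ⟩ := exists_lift b ρ.ρ (bcHom T (gLev D (c + k)))
    ((LinearMap.det (M := ρ.V) (A := T)).comp ρ.ρ) hspan hrel h2
  exact isFlatMod_quot b ρ.ρ (I • (⊤ : Submodule T ρ.V)) (level_stable ρ I)
    (bcHom T (gLev D (c + k))) hflatX (Submodule.smul_mono_left hann) Ψ hΨ

/-- Nakayama for the span of the image. -/
theorem span_top_of_red {𝒪 : Type} [CommRing 𝒪] [IsLocalRing 𝒪]
    {rbar : GQ →* M2 (ResidueField 𝒪)}
    (hspan : Submodule.span (ResidueField 𝒪) (Set.range rbar) = ⊤)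
    {T : Type} [CommRing T] [IsLocalRing T] [Algebra 𝒪 T] [IsLocalHom (algebraMap 𝒪 T)]
    {r : GQ →* M2 T} (hred : Red rbar r) : Submodule.span T (Set.range r) = ⊤ := by
  have hloc : ∀ o : 𝒪, residue 𝒪 o = 0 → algebraMap 𝒪 T o ∈ maximalIdeal T := fun o ho =>
    map_nonunit (algebraMap 𝒪 T) o ((residue_eq_zero_iff o).1 ho)
  have key : ∀ x ∈ Submodule.span (ResidueField 𝒪) (Set.range rbar),
      ∃ X ∈ Submodule.span T (Set.range r), ∀ i j o, residue 𝒪 o = x i j →
        X i j - algebraMap 𝒪 T o ∈ maximalIdeal T := by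
    intro x hx
    induction hx using Submodule.span_induction with
    | mem x hx =>
      obtain ⟨σ, rfl⟩ := hx
      exact ⟨r σ, Submodule.subset_span ⟨σ, rfl⟩, fun i j o ho => hred σ i j o ho⟩
    | zero =>
      refine ⟨0, Submodule.zero_mem _, fun i j o ho => ?_⟩
      rw [Matrix.zero_apply, zero_sub]
      exact neg_mem (hloc o ho)
    | add x y _ _ hx hy =>
      obtain ⟨X, hX, hX'⟩ := hx
      obtain ⟨Y, hY, hY'⟩ := hy
      refine ⟨X + Y, Submodule.add_mem _ hX hY, fun i j o ho => ?_⟩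
      obtain ⟨a, ha⟩ := residue_surjective (R := 𝒪) (x i j)
      have h1 := hX' i j a ha
      have h2 := hY' i j (o - a) (by rw [map_sub, ho, ha, Matrix.add_apply, add_sub_cancel_left])
      have h3 := Ideal.add_mem _ h1 h2
      rw [map_sub] at h3
      convert h3 using 1
      rw [Matrix.add_apply]
      ring
    | smul c x _ hx =>
      obtain ⟨X, hX, hX'⟩ := hx
      obtain ⟨a, ha⟩ := residue_surjective (R := 𝒪) c
      refine ⟨algebraMap 𝒪 T a • X, Submodule.smul_mem _ _ hX, fun i j o ho => ?_⟩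
      obtain ⟨b, hb⟩ := residue_surjective (R := 𝒪) (x i j)
      have h1 := Ideal.mul_mem_left _ (algebraMap 𝒪 T a) (hX' i j b hb)
      have h2 := hloc (a * b - o) (by
        rw [map_sub, map_mul, ha, hb, ho, Matrix.smul_apply, smul_eq_mul, sub_self])
      have h3 := Ideal.add_mem _ h1 h2
      rw [map_sub, map_mul] at h3
      convert h3 using 1
      rw [Matrix.smul_apply, smul_eq_mul]
      ring
  have h1 : (⊤ : Submodule T (M2 T)) ≤ Submodule.span T (Set.range r) ⊔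
      maximalIdeal T • (⊤ : Submodule T (M2 T)) := by
    intro Y _
    rw [Matrix.matrix_eq_sum_single Y]
    refine Submodule.sum_mem _ fun i _ => Submodule.sum_mem _ fun j _ => ?_
    have h2 : Matrix.single i j (Y i j) = Y i j • Matrix.single i j (1 : T) := by
      rw [Matrix.smul_single, smul_eq_mul, mul_one]
    rw [h2]
    refine Submodule.smul_mem _ _ ?_
    obtain ⟨X, hX, hX'⟩ := key (Matrix.single i j 1) (by rw [hspan]; trivial)
    have h3 : Matrix.single i j (1 : T) = X + -(X - Matrix.single i j 1) := by abel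
    rw [h3]
    refine Submodule.add_mem_sup hX (neg_mem ?_)
    rw [Matrix.matrix_eq_sum_single (X - Matrix.single i j 1)]
    refine Submodule.sum_mem _ fun a _ => Submodule.sum_mem _ fun b _ => ?_
    have h4 : Matrix.single a b ((X - Matrix.single i j 1 : M2 T) a b) =
        (X - Matrix.single i j 1 : M2 T) a b • Matrix.single a b (1 : T) := by
      rw [Matrix.smul_single, smul_eq_mul, mul_one]
    rw [h4]
    refine Submodule.smul_mem_smul ?_ trivial
    rw [Matrix.sub_apply]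
    have h5 := hX' a b ((Matrix.single i j (1 : 𝒪)) a b) (by
      rw [Matrix.single_apply, Matrix.single_apply]
      split_ifs
      · exact map_one _
      · exact map_zero _)
    have h6 : algebraMap 𝒪 T ((Matrix.single i j (1 : 𝒪)) a b) = Matrix.single i j (1 : T) a b := by
      rw [Matrix.single_apply, Matrix.single_apply]
      split_ifs
      · exact map_one _
      · exact map_zero _
    rw [← h6]
    exact h5
  exact top_le_iff.1 (Submodule.le_of_le_smul_of_le_jacobson_bot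
    (Module.Finite.fg_top) (IsLocalRing.maximalIdeal_le_jacobson _) h1)

/-- The span of the associated representation. -/
theorem span_ofMat {T : Type} [CommRing T] [IsLocalRing T] {r : GQ →* M2 T} (hc : MatCont T r)
    (hspan : Submodule.span T (Set.range r) = ⊤) :
    Submodule.span T (Set.range (ofMat r hc).ρ) = ⊤ := by
  have h0 : Submodule.span T
      (((Matrix.toLin' : M2 T ≃ₗ[T] _).toLinearMap : M2 T → _) '' Set.range r) =
      (⊤ : Submodule T ((Fin 2 → T) →ₗ[T] (Fin 2 → T))) := by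
    rw [Submodule.span_image (Matrix.toLin' : M2 T ≃ₗ[T] _).toLinearMap, hspan, Submodule.map_top]
    exact LinearEquiv.range _
  rw [← Set.range_comp] at h0
  exact h0

theorem charpoly_ofMat {T : Type} [CommRing T] [IsLocalRing T] {r : GQ →* M2 T} (hc : MatCont T r)
    (σ : GQ) : LinearMap.charpoly ((ofMat r hc).ρ σ) =
      X ^ 2 - C (r σ).trace * X + C (r σ).det := by
  have h1 : LinearMap.charpoly ((ofMat r hc).ρ σ) = (r σ).charpoly := by
    have h2 := LinearMap.charpoly_toMatrix (Matrix.toLin' (r σ)) (Pi.basisFun T (Fin 2))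
    refine Eq.trans h2.symm ?_
    congr 1
    exact LinearMap.toMatrix'_toLin' (r σ)
  rw [h1]
  rcases subsingleton_or_nontrivial T with h | h
  · exact Subsingleton.elim _ _
  · exact Matrix.charpoly_fin_two _

/-- **Flatness over the Hecke algebra.** -/
theorem flatRep_hecke {p : ℕ} [hp : Fact p.Prime] (hp2 : p ≠ 2) {N : ℕ} [NeZero N]
    (hpN : ¬ p ∣ N) {S : Finset ℕ}
    {𝒪 : Type} [CommRing 𝒪] [IsDomain 𝒪] [IsDiscreteValuationRing 𝒪]
    [IsAdicComplete (maximalIdeal 𝒪) 𝒪] [Finite (ResidueField 𝒪)] [CharZero 𝒪]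
    {T : Type} [CommRing T] [IsLocalRing T] [Algebra 𝒪 T] [IsLocalHom (algebraMap 𝒪 T)]
    [Module.Finite 𝒪 T] [Module.Free 𝒪 T]
    (hp𝒪 : (p : 𝒪) ∈ maximalIdeal 𝒪) (hpS : p ∈ S) (hNS : ∀ q : ℕ, q.Prime → q ∣ N → q ∈ S)
    (π : CuspForm.heckeAlgebra N 2 (↑S : Set ℕ) →+* T)
    {rbar : GQ →* M2 (ResidueField 𝒪)}
    (hspan : Submodule.span (ResidueField 𝒪) (Set.range rbar) = ⊤)
    (r : GQ →* M2 T) (hc : MatCont T r) (hred : Red rbar r) (hatt : TW.IsAtt r π) :
    FlatRep p T r := by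
  have hS : ∀ q : ℕ, q.Prime → q ∣ N → q ∈ (↑S : Set ℕ) := fun q hq hqN =>
    Finset.mem_coe.2 (hNS q hq hqN)
  have i1 : IsReduced (CuspForm.heckeAlgebra N 2 (↑S : Set ℕ)) :=
    Fermat.Agent.HeckeGal.isReduced_heckeAlgebra hNS
  have i2 := Fermat.Agent.Period.finite_heckeAlgebra N 2 (↑S : Set ℕ)
  have i3 : IsAddTorsionFree (CuspForm.heckeAlgebra N 2 (↑S : Set ℕ)) :=
    isAddTorsionFree_heckeAlgebra N (↑S : Set ℕ)
  have i4 : IsAdicComplete (maximalIdeal T) T := IsLocalRing.isAdicComplete_of_module_finite (𝒪 := 𝒪)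
  have h1 := levFlat_of_levels hp2 (jIn N p (↑S : Set ℕ) hS).toModule
    (fun m => finite_lev _ m (finite_jIn N p _ hS m))
    (fun m => isFlatMod_jIn N p hpN _ hS m) hp𝒪 hpS hNS π (ofMat r hc)
    (fun ℓ hℓ hℓN hℓS A hA σ hσ => by
      rw [charpoly_ofMat, (hatt ℓ hℓ hℓN hℓS A hA σ hσ).1, (hatt ℓ hℓ hℓN hℓS A hA σ hσ).2])
    (span_ofMat hc (span_top_of_red hspan hred))
  refine LevFlat.flatRep (Pi.basisFun T (Fin 2)) h1 r fun σ j i => ?_
  rw [Pi.basisFun_repr, Pi.basisFun_apply]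
  change r σ i j = (r σ *ᵥ Pi.single j 1) i
  rw [mulVec_single_one]
  rfl

end Fermat.Agent.FlatT
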