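import Fermat.Agent.FlatT.MatRep
import Fermat.Agent.RT8J.Joint

/-!
Flatness of the joint ring.
-/

set_option autoImplicit false
set_option linter.unusedSectionVars false

noncomputable section

open Module GaloisRep Fermat.Agent.HopfOrder IsLocalRing Matrix

namespace Fermat.Agent.FlatT

open Fermat.Agent.DefRing (M2 MatCont mapRep mapRep_apply ofMat matOf SliceData)

theorem finite_quotient_nat {𝒪 T : Type} [CommRing 𝒪] [IsDomain 𝒪]
    [IsDiscreteValuationRing 𝒪] [Finite (ResidueField 𝒪)] [CharZero 𝒪] [CommRing T] [Algebra 𝒪 T]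
    [Module.Finite 𝒪 T] {m : ℕ} (hm : m ≠ 0) (n : ℕ) :
    Finite (T ⧸ Ideal.span {((m : T) ^ n)}) := by
  classical
  have h0 : Finite (𝒪 ⧸ Ideal.span {((m : 𝒪) ^ n)}) := by
    obtain ⟨k, hk⟩ := Fermat.Agent.HeckeGal.exists_pow_le_span (O := 𝒪) (c := (m : 𝒪) ^ n)
      (pow_ne_zero n (Nat.cast_ne_zero.2 hm))
    have h0 : Finite (𝒪 ⧸ maximalIdeal 𝒪) := ‹Finite (ResidueField 𝒪)›
    have h1 : Finite (𝒪 ⧸ maximalIdeal 𝒪 ^ k) :=
      Ideal.finite_quotient_pow (IsNoetherian.noetherian _) k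
    have hle : maximalIdeal 𝒪 ^ k ≤ Ideal.span {((m : 𝒪) ^ n)} := fun x hx =>
      Ideal.mem_span_singleton.2 (hk x hx)
    exact Finite.of_surjective _ (Ideal.Quotient.factor_surjective hle)
  obtain ⟨s, hs⟩ := (Module.Finite.fg_top : (⊤ : Submodule 𝒪 T).FG)
  let f : (s → 𝒪 ⧸ Ideal.span {((m : 𝒪) ^ n)}) → T ⧸ Ideal.span {((m : T) ^ n)} := fun a =>
    Ideal.Quotient.mk _ (∑ i, (Quotient.out (a i) : 𝒪) • (i : T))
  refine Finite.of_surjective f fun y => ?_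
  obtain ⟨t, rfl⟩ := Ideal.Quotient.mk_surjective y
  have ht : t ∈ Submodule.span 𝒪 (s : Set T) := by rw [hs]; trivial
  obtain ⟨b, hb⟩ := (Submodule.mem_span_finset' ).1 ht
  refine ⟨fun i => Ideal.Quotient.mk _ (b i), ?_⟩
  rw [Ideal.Quotient.eq, ← hb, ← Finset.sum_sub_distrib]
  refine Ideal.sum_mem _ fun i _ => ?_
  rw [← sub_smul, Ideal.mem_span_singleton]
  have h1 : Ideal.Quotient.mk (Ideal.span {((m : 𝒪) ^ n)})
      (Quotient.out (Ideal.Quotient.mk (Ideal.span {((m : 𝒪) ^ n)}) (b i)) : 𝒪) =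
      Ideal.Quotient.mk (Ideal.span {((m : 𝒪) ^ n)}) (b i) := Quotient.out_eq' _
  rw [Ideal.Quotient.eq, Ideal.mem_span_singleton] at h1
  obtain ⟨c, hc⟩ := h1
  rw [hc]
  exact ⟨c • (i : T), by rw [mul_smul, Algebra.smul_def ((m : 𝒪) ^ n), map_pow, map_natCast]⟩

/-- Artin–Rees: the topologies agree. -/
theorem exists_pow_of_inj {𝒪 R : Type} [CommRing 𝒪] [IsNoetherianRing 𝒪]
    [CommRing R] [Algebra 𝒪 R] {J : Type} [Finite J] (T : J → Type) [∀ j, CommRing (T j)]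
    [∀ j, Algebra 𝒪 (T j)] [∀ j, Module.Finite 𝒪 (T j)] (pr : ∀ j, R →ₐ[𝒪] T j)
    (hinj : ∀ x, (∀ j, pr j x = 0) → x = 0) (m : ℕ) :
    ∃ n : ℕ, ∀ x : R, (∀ j, (m : T j) ^ n ∣ pr j x) → (m : R) ∣ x := by
  classical
  have := Fintype.ofFinite J
  let F : R →ₗ[𝒪] (∀ j, T j) := LinearMap.pi fun j => (pr j).toLinearMap
  have hF : Function.Injective F := by
    rw [injective_iff_map_eq_zero]
    intro x hx
    exact hinj x fun j => congrFun hx j
  obtain ⟨k, hk⟩ := Ideal.exists_pow_inf_eq_pow_smul (R := 𝒪) (M := ∀ j, T j)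
    (Ideal.span {(m : 𝒪)}) (LinearMap.range F)
  refine ⟨1 + k, fun x hx => ?_⟩
  choose y hy using hx
  have h1 : F x ∈ Ideal.span {(m : 𝒪)} ^ (1 + k) • (⊤ : Submodule 𝒪 (∀ j, T j)) ⊓
      LinearMap.range F := by
    refine ⟨?_, x, rfl⟩
    rw [Ideal.span_singleton_pow]
    have h2 : F x = (m : 𝒪) ^ (1 + k) • (y : ∀ j, T j) := by
      funext j
      rw [Pi.smul_apply, Algebra.smul_def, map_pow, map_natCast, ← hy j]
      rfl
    rw [h2]
    exact Submodule.smul_mem_smul (Ideal.mem_span_singleton_self _) trivial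
  rw [hk (1 + k) (Nat.le_add_left k 1), Nat.add_sub_cancel, pow_one,
    Submodule.ideal_span_singleton_smul] at h1
  obtain ⟨z, ⟨-, w, hw⟩, hz⟩ := Submodule.mem_smul_pointwise_iff_exists _ _ _ |>.1 h1
  refine ⟨w, hF ?_⟩
  rw [← hz, ← hw, ← map_smul, Algebra.smul_def, map_natCast]

/-- The product action. -/
@[reducible] def piAct {J : Type} (B : J → Type) [∀ j, CommRing (B j)]
    (r : ∀ j, GQ →* M2 (B j)) : DistribMulAction GQ (∀ j, Fin 2 → B j) :=
  let _ : ∀ j, DistribMulAction GQ (Fin 2 → B j) := fun j => matAct (r j)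
  Pi.distribMulAction GQ

theorem piAct_smul {J : Type} (B : J → Type) [∀ j, CommRing (B j)]
    (r : ∀ j, GQ →* M2 (B j)) (σ : GQ) (x : ∀ j, Fin 2 → B j) (j : J) :
    (piAct B r).smul σ x j = r j σ *ᵥ x j := rfl

theorem isFlatMod_pi {p : ℕ} [Fact p.Prime] {J : Type} [Finite J] (B : J → Type) [∀ j, CommRing (B j)]
    [∀ j, Finite (B j)] (r : ∀ j, GQ →* M2 (B j))
    (h : ∀ j, @IsFlatMod p (Fin 2 → B j) _ (matAct (r j))) :
    @IsFlatMod p (∀ j, Fin 2 → B j) _ (piAct B r) :=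
  let _ : ∀ j, DistribMulAction GQ (Fin 2 → B j) := fun j => matAct (r j)
  IsFlatMod.pi h

theorem isFlatMod_of_maps {p : ℕ} [Fact p.Prime] {R : Type} [CommRing R] (r0 : GQ →* M2 R) {J : Type} [Finite J]
    (B : J → Type) [∀ j, CommRing (B j)] [∀ j, Finite (B j)] (f : ∀ j, R →+* B j)
    (h : ∀ j, @IsFlatMod p (Fin 2 → B j) _ (matAct (mapRep (f j) r0)))
    {C : Type} [CommRing C] [Finite C] (φ : R →+* C)
    (hker : ∀ x, (∀ j, f j x = 0) → φ x = 0) :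
    @IsFlatMod p (Fin 2 → C) _ (matAct (mapRep φ r0)) := by
  have h1 := isFlatMod_pi B _ h
  let ψ : (Fin 2 → R) →+ (∀ j, Fin 2 → B j) :=
    AddMonoidHom.mk' (fun v j i => f j (v i)) fun v w => by
      funext j i
      exact map_add (f j) _ _
  let _ := piAct B (fun j => mapRep (f j) r0)
  refine isFlatMod_of_ker r0 φ h1 ψ ?_ ?_
  · intro σ v
    funext j
    refine Eq.trans ?_ (piAct_smul B (fun j => mapRep (f j) r0) σ (ψ v) j).symm
    funext i
    change f j ((r0 σ *ᵥ v) i) = (mapRep (f j) r0 σ *ᵥ fun i => f j (v i)) i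
    simp only [mulVec, dotProduct, Fin.sum_univ_two, map_add, map_mul, mapRep_apply]
  · intro v hv i
    exact hker _ fun j => congrFun (congrFun hv j) i

/-- **Flatness of the joint ring.** -/
theorem flatRep_joint {p : ℕ} [hp : Fact p.Prime] {𝒪 : Type} [CommRing 𝒪] [IsDomain 𝒪]
    [IsDiscreteValuationRing 𝒪] [Finite (ResidueField 𝒪)] [CharZero 𝒪] {R : Type} [CommRing R]
    [Algebra 𝒪 R] (r0 : GQ →* M2 R) {J : Type} [Finite J] (T : J → Type)
    [∀ j, CommRing (T j)] [∀ j, Algebra 𝒪 (T j)] [∀ j, Module.Finite 𝒪 (T j)]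
    (r : ∀ j, GQ →* M2 (T j)) (pr : ∀ j, R →ₐ[𝒪] T j)
    (hpr : ∀ j, mapRep (pr j : R →+* T j) r0 = r j)
    (hinj : ∀ x, (∀ j, pr j x = 0) → x = 0) (h : ∀ j, FlatRep p (T j) (r j)) :
    FlatRep p R r0 := by
  intro B _ _ φ
  obtain ⟨m, hm0, hmB⟩ : ∃ m : ℕ, m ≠ 0 ∧ (m : B) = 0 := by
    have := Fintype.ofFinite B
    exact ⟨Fintype.card B, Fintype.card_ne_zero, Nat.cast_card_eq_zero B⟩
  obtain ⟨n, hn⟩ := exists_pow_of_inj T pr hinj m
  have hfin : ∀ j, Finite (T j ⧸ Ideal.span {((m : T j) ^ n)}) := fun j =>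
    finite_quotient_nat (𝒪 := 𝒪) hm0 n
  refine isFlatMod_of_maps r0 (fun j => T j ⧸ Ideal.span {((m : T j) ^ n)})
    (fun j => (Ideal.Quotient.mk _).comp (pr j : R →+* T j)) (fun j => ?_) φ fun x hx => ?_
  · have h1 := h j _ (Ideal.Quotient.mk (Ideal.span {((m : T j) ^ n)}))
    rw [← hpr j] at h1
    exact h1
  · obtain ⟨w, hw⟩ : (m : R) ∣ x := hn x fun j => by
      have h3 : Ideal.Quotient.mk (Ideal.span {((m : T j) ^ n)}) (pr j x) = 0 := hx j
      rw [Ideal.Quotient.eq_zero_iff_mem, Ideal.mem_span_singleton] at h3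
      exact h3
    rw [hw, map_mul, map_natCast, hmB, zero_mul]

/-- **The joint ring of flat systems is flat.** -/
theorem flatRep_jring {p : ℕ} [hp : Fact p.Prime] {𝒪 : Type} [CommRing 𝒪] [IsDomain 𝒪]
    [IsDiscreteValuationRing 𝒪] [Finite (ResidueField 𝒪)] [CharZero 𝒪]
    {rbar : GQ →* M2 (ResidueField 𝒪)} {sd : SliceData rbar} {J : Type} [Finite J] {T : J → Type}
    [∀ j, CommRing (T j)] [∀ j, Algebra 𝒪 (T j)] [∀ j, Module.Finite 𝒪 (T j)]
    {r : ∀ j, GQ →* M2 (T j)} (A : RT8J.JRing sd T r) (h : ∀ j, FlatRep p (T j) (r j)) :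
    FlatRep p A.R A.r0 :=
  flatRep_joint A.r0 T r A.pr A.pr_r0 A.inj h

end Fermat.Agent.FlatT
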