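import Fermat.Agent.FlatT.LevRep
import Fermat.Agent.FlatT.Joint

/-!
Flatness of the joint ring, in the form used by the tangent space computations.
-/

set_option autoImplicit false
set_option linter.unusedSectionVars false

noncomputable section

open Module GaloisRep Fermat.Agent.HopfOrder IsLocalRing Matrix

namespace Fermat.Agent.FlatT

open Fermat.Agent.DefRing (M2 MatCont mapRep mapRep_apply ofMat matOf SliceData)

/-- **The joint representation of flat systems is flat at `p`.** -/
theorem isFlatAt_jring {p : ℕ} [hp : Fact p.Prime] {𝒪 : Type} [CommRing 𝒪] [IsDomain 𝒪]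
    [IsDiscreteValuationRing 𝒪] [Finite (ResidueField 𝒪)] [CharZero 𝒪]
    {rbar : GQ →* M2 (ResidueField 𝒪)} {sd : SliceData rbar} {J : Type} [Finite J] {T : J → Type}
    [∀ j, CommRing (T j)] [∀ j, Algebra 𝒪 (T j)] [∀ j, Module.Finite 𝒪 (T j)]
    {r : ∀ j, GQ →* M2 (T j)} (A : RT8J.JRing sd T r) (h : ∀ j, FlatRep p (T j) (r j)) :
    (ofMat A.r0 A.cont).IsFlatAt p := by
  refine (flatRep_jring A h).isFlatAt_ofMat A.cont ?_
  refine Finite.of_surjective
    (ResidueField.map (algebraMap 𝒪 A.R) : ResidueField 𝒪 →+* ResidueField A.R) ?_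
  intro y
  obtain ⟨x, hx⟩ := A.surj y
  exact ⟨residue 𝒪 x, hx⟩

end Fermat.Agent.FlatT
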