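import Fermat.Agent.FlatT.MatRep

/-!
Flatness of the finite quotients of an adic representation, in matrix form.
-/

set_option autoImplicit false
set_option linter.unusedSectionVars false

noncomputable section

open Module GaloisRep Fermat.Agent.HopfOrder IsLocalRing Matrix

namespace Fermat.Agent.FlatT

open Fermat.Agent.DefRing (M2 MatCont mapRep mapRep_apply ofMat matOf)

variable {p : ℕ} [hp : Fact p.Prime] {T : Type} [CommRing T] {V : Type} [AddCommGroup V]
  [Module T V]

theorem stable_smul_top (ρ : GQ →* Module.End T V) (I : Ideal T) (g : GQ) :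
    I • (⊤ : Submodule T V) ≤ (I • (⊤ : Submodule T V)).comap (ρ g) := by
  rw [← Submodule.map_le_iff_le_comap, Submodule.map_smul'']
  exact Submodule.smul_mono le_rfl le_top

variable (p) in
/-- All finite levels are flat. -/
def LevFlat (ρ : GQ →* Module.End T V) : Prop :=
  ∀ I : Ideal T, Finite (T ⧸ I) → @IsFlatMod p (V ⧸ (I • (⊤ : Submodule T V))) _
    (actOf (quotHom ρ (I • (⊤ : Submodule T V)) (stable_smul_top ρ I)))

theorem repr_mulVec (b : Basis (Fin 2) T V) (ρ : GQ →* Module.End T V) (r : GQ →* M2 T)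
    (hr : ∀ σ j i, r σ i j = b.repr (ρ σ (b j)) i) (σ : GQ) (v : V) (i : Fin 2) :
    b.repr (ρ σ v) i = (r σ *ᵥ fun j => b.repr v j) i := by
  conv_lhs => rw [← b.sum_repr v]
  rw [map_sum, map_sum, Finsupp.finsetSum_apply, mulVec, dotProduct]
  refine Finset.sum_congr rfl fun j _ => ?_
  rw [map_smul, map_smul, Finsupp.smul_apply, hr, smul_eq_mul, mul_comm]

/-- From levels to matrices. -/
theorem LevFlat.flatRep (b : Basis (Fin 2) T V) {ρ : GQ →* Module.End T V} (h : LevFlat p ρ)
    (r : GQ →* M2 T) (hr : ∀ σ j i, r σ i j = b.repr (ρ σ (b j)) i) : FlatRep p T r := by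
  intro B _ _ φ
  let I : Ideal T := RingHom.ker φ
  have hI : Finite (T ⧸ I) := Finite.of_injective _ (RingHom.kerLift_injective φ)
  have h1 := h I hI
  have hfin : Finite (V ⧸ (I • (⊤ : Submodule T V))) := by
    have := Module.Finite.of_basis b
    exact Submodule.finite_quotient_smul I Module.Finite.fg_top
  let _ := actOf (quotHom ρ (I • (⊤ : Submodule T V)) (stable_smul_top ρ I))
  refine isFlatMod_of_ker r φ h1
    (((I • (⊤ : Submodule T V)).mkQ.toAddMonoidHom).comp
      (b.equivFun.symm.toLinearMap.toAddMonoidHom)) ?_ ?_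
  · intro σ v
    change (I • (⊤ : Submodule T V)).mkQ (b.equivFun.symm (r σ *ᵥ v)) =
      (I • (⊤ : Submodule T V)).mkQ (ρ σ (b.equivFun.symm v))
    congr 1
    apply b.equivFun.injective
    rw [LinearEquiv.apply_symm_apply]
    funext i
    rw [Basis.equivFun_apply, repr_mulVec b ρ r hr]
    congr 1
    congr 1
    funext j
    rw [← Basis.equivFun_apply, LinearEquiv.apply_symm_apply]
  · intro v hv i
    change (I • (⊤ : Submodule T V)).mkQ (b.equivFun.symm v) = 0 at hv
    rw [Submodule.mkQ_apply, Submodule.Quotient.mk_eq_zero] at hv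
    have h2 := Fermat.Agent.DefRing.repr_mem_of_mem_smul_top b I hv i
    rw [← Basis.equivFun_apply, LinearEquiv.apply_symm_apply] at h2
    exact h2

/-- From matrices to levels. -/
theorem FlatRep.levFlat (b : Basis (Fin 2) T V) {ρ : GQ →* Module.End T V}
    {r : GQ →* M2 T} (h : FlatRep p T r) (hr : ∀ σ j i, r σ i j = b.repr (ρ σ (b j)) i) :
    LevFlat p ρ := by
  intro I hI
  have h1 := h (T ⧸ I) (Ideal.Quotient.mk I)
  let _ := matAct (mapRep (Ideal.Quotient.mk I) r)
  let _ := actOf (quotHom ρ (I • (⊤ : Submodule T V)) (stable_smul_top ρ I))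
  let q : V →+ (Fin 2 → T ⧸ I) := AddMonoidHom.mk' (fun v i => Ideal.Quotient.mk I (b.repr v i))
    fun v w => by
      funext i
      rw [map_add, Finsupp.add_apply, map_add]
      rfl
  have hq : ∀ v, q v = 0 ↔ v ∈ I • (⊤ : Submodule T V) := by
    intro v
    constructor
    · intro hv
      refine Fermat.Agent.DefRing.mem_smul_top_of_repr_mem b I fun i => ?_
      exact Ideal.Quotient.eq_zero_iff_mem.1 (congrFun hv i)
    · intro hv
      funext i
      exact Ideal.Quotient.eq_zero_iff_mem.2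
        (Fermat.Agent.DefRing.repr_mem_of_mem_smul_top b I hv i)
  let F : (V ⧸ (I • (⊤ : Submodule T V))) →+ (Fin 2 → T ⧸ I) :=
    QuotientAddGroup.lift (I • (⊤ : Submodule T V)).toAddSubgroup q fun v hv => (hq v).2 hv
  refine h1.of_injective F ?_ ?_
  · rw [injective_iff_map_eq_zero]
    intro x hx
    obtain ⟨v, rfl⟩ := (I • (⊤ : Submodule T V)).mkQ_surjective x
    have h2 : q v = 0 := hx
    rw [Submodule.mkQ_apply, Submodule.Quotient.mk_eq_zero]
    exact (hq v).1 h2
  · intro σ x
    obtain ⟨v, rfl⟩ := (I • (⊤ : Submodule T V)).mkQ_surjective x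
    change q (ρ σ v) = mapRep (Ideal.Quotient.mk I) r σ *ᵥ q v
    funext i
    change Ideal.Quotient.mk I (b.repr (ρ σ v) i) = _
    rw [repr_mulVec b ρ r hr]
    simp only [mulVec, dotProduct, Fin.sum_univ_two, map_add, map_mul, mapRep_apply]
    rfl

/-- Levels and `IsFlatAt`. -/
theorem LevFlat.isFlatAt [IsLocalRing T] (ρ : GaloisRepAdic T) (h : LevFlat p ρ.ρ)
    (hres : Finite (ResidueField T)) : ρ.IsFlatAt p := by
  refine ⟨hres, fun I hI => ?_⟩
  have h1 := h I hI
  have hfin : Finite (ρ.V ⧸ (I • (⊤ : Submodule T ρ.V))) :=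
    Submodule.finite_quotient_smul I Module.Finite.fg_top
  let _ := actOf (quotHom ρ.ρ (I • (⊤ : Submodule T ρ.V)) (level_stable ρ I))
  exact h1.exists_hopfAlgebra

/-- Flat matrix representations are flat in the sense of finite quotients. -/
theorem FlatRep.isFlatAt_ofMat [IsLocalRing T] {r : GQ →* M2 T} (h : FlatRep p T r)
    (hc : MatCont T r) (hres : Finite (ResidueField T)) : (ofMat r hc).IsFlatAt p := by
  refine LevFlat.isFlatAt (ofMat r hc) ?_ hres
  refine FlatRep.levFlat (Pi.basisFun T (Fin 2)) h fun σ j i => ?_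
  rw [Pi.basisFun_repr, Pi.basisFun_apply]
  change r σ i j = (r σ *ᵥ Pi.single j 1) i
  rw [mulVec_single_one]
  rfl

/-- Flat representations of an adic Galois representation in a basis. -/
theorem LevFlat.flatRep_matOf [IsLocalRing T] {ρ : GaloisRepAdic T} (h : LevFlat p ρ.ρ)
    (b : Basis (Fin 2) T ρ.V) : FlatRep p T (matOf ρ b) := by
  refine LevFlat.flatRep b h _ fun σ j i => ?_
  rw [Fermat.Agent.DefRing.matOf_apply, LinearMap.toMatrixAlgEquiv_apply]

theorem FlatRep.isFlatAt_of_matOf [IsLocalRing T] {ρ : GaloisRepAdic T} (b : Basis (Fin 2) T ρ.V)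
    (h : FlatRep p T (matOf ρ b)) (hres : Finite (ResidueField T)) : ρ.IsFlatAt p := by
  refine LevFlat.isFlatAt ρ ?_ hres
  refine FlatRep.levFlat b h fun σ j i => ?_
  rw [Fermat.Agent.DefRing.matOf_apply, LinearMap.toMatrixAlgEquiv_apply]

end Fermat.Agent.FlatT
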