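import Fermat.Agent.FlatT.Rel
import Fermat.Agent.FlatT.Faithful
import Fermat.Agent.HGModule.Basic
import Fermat.Agent.QuadRep.Cyclo

/-!
The finite levels of a Hecke-Galois module.
-/

set_option autoImplicit false
set_option linter.unusedSectionVars false

noncomputable section

open Module GaloisRep Fermat.Agent.HopfOrder IsLocalRing
open scoped TensorProduct

namespace Fermat.Agent.FlatT

open Fermat.Agent.HGModule

variable {p : ℕ} [hp : Fact p.Prime] {N : ℕ} [NeZero N] {S : Set ℕ} (D : HeckeGaloisModule p N S)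

/-- The Tate module. -/
abbrev Lam := ℤ_[p] ⊗[ℤ] D.H

/-- `p ^ m Λ`. -/
def lamSub (m : ℕ) : Submodule ℤ_[p] (Lam D) :=
  LinearMap.range (LinearMap.lsmul ℤ_[p] (Lam D) ((p : ℤ_[p]) ^ m))

theorem mem_lamSub {m : ℕ} {x : Lam D} : x ∈ lamSub D m ↔ ∃ y : Lam D, (p : ℤ_[p]) ^ m • y = x :=
  Iff.rfl

theorem lamSub_le_comap (m : ℕ) (f : Module.End ℤ_[p] (Lam D)) :
    lamSub D m ≤ (lamSub D m).comap f := by
  rintro _ ⟨y, rfl⟩
  exact ⟨f y, (map_smul f _ _).symm⟩

/-- `Λ / p ^ m Λ`. -/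
def Lev (m : ℕ) : Type := Lam D ⧸ lamSub D m

instance (m : ℕ) : AddCommGroup (Lev D m) := inferInstanceAs (AddCommGroup (Lam D ⧸ lamSub D m))

instance (m : ℕ) : Module ℤ_[p] (Lev D m) := inferInstanceAs (Module ℤ_[p] (Lam D ⧸ lamSub D m))

/-- The projection. -/
def mkL (m : ℕ) : Lam D →ₗ[ℤ_[p]] Lev D m := (lamSub D m).mkQ

theorem mkL_surjective (m : ℕ) : Function.Surjective (mkL D m) := (lamSub D m).mkQ_surjective

theorem mkL_eq_zero {m : ℕ} {x : Lam D} : mkL D m x = 0 ↔ ∃ y : Lam D, (p : ℤ_[p]) ^ m • y = x :=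
  (Submodule.Quotient.mk_eq_zero _).trans (mem_lamSub D)

/-- Endomorphisms of the levels. -/
def quotEnd (m : ℕ) : Module.End ℤ_[p] (Lam D) →+* Module.End ℤ_[p] (Lev D m) where
  toFun f := (lamSub D m).mapQ (lamSub D m) f (lamSub_le_comap D m f)
  map_one' := by
    refine LinearMap.ext fun x => ?_
    obtain ⟨x, rfl⟩ := (lamSub D m).mkQ_surjective x
    rfl
  map_mul' f g := by
    refine LinearMap.ext fun x => ?_
    obtain ⟨x, rfl⟩ := (lamSub D m).mkQ_surjective x
    rfl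
  map_zero' := by
    refine LinearMap.ext fun x => ?_
    obtain ⟨x, rfl⟩ := (lamSub D m).mkQ_surjective x
    rfl
  map_add' f g := by
    refine LinearMap.ext fun x => ?_
    obtain ⟨x, rfl⟩ := (lamSub D m).mkQ_surjective x
    rfl

theorem quotEnd_mkL (m : ℕ) (f : Module.End ℤ_[p] (Lam D)) (x : Lam D) :
    quotEnd D m f (mkL D m x) = mkL D m (f x) := rfl

/-- The Hecke action on the Tate module. -/
def thetaLam : CuspForm.heckeAlgebra N 2 S →+* Module.End ℤ_[p] (Lam D) where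
  toFun t := (D.θ t).baseChange ℤ_[p]
  map_one' := by rw [map_one, LinearMap.baseChange_one]
  map_mul' f g := by rw [map_mul, LinearMap.baseChange_mul]
  map_zero' := by rw [map_zero, LinearMap.baseChange_zero]
  map_add' f g := by rw [map_add, LinearMap.baseChange_add]

instance (m : ℕ) : Module (CuspForm.heckeAlgebra N 2 S) (Lev D m) :=
  Module.compHom (Lev D m) ((quotEnd D m).comp (thetaLam D))

theorem smul_mkL (m : ℕ) (t : CuspForm.heckeAlgebra N 2 S) (x : Lam D) :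
    t • mkL D m x = mkL D m ((D.θ t).baseChange ℤ_[p] x) := rfl

/-- The Galois action on the levels. -/
def gLev (m : ℕ) : GQ →* Module.End (CuspForm.heckeAlgebra N 2 S) (Lev D m) where
  toFun g :=
    { toFun := quotEnd D m (D.ρ g)
      map_add' := map_add _
      map_smul' := fun t x => by
        obtain ⟨x, rfl⟩ := mkL_surjective D m x
        rw [RingHom.id_apply, smul_mkL, quotEnd_mkL, quotEnd_mkL, smul_mkL]
        have h1 := congrArg (fun f : Module.End ℤ_[p] (Lam D) => f x) (D.commute t g).eq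
        exact congrArg (mkL D m) h1.symm }
  map_one' := by
    refine LinearMap.ext fun x => ?_
    change quotEnd D m (D.ρ 1) x = x
    rw [map_one, map_one]
    rfl
  map_mul' g h := by
    refine LinearMap.ext fun x => ?_
    change quotEnd D m (D.ρ (g * h)) x = quotEnd D m (D.ρ g) (quotEnd D m (D.ρ h) x)
    rw [map_mul, map_mul]
    rfl

theorem gLev_mkL (m : ℕ) (g : GQ) (x : Lam D) : gLev D m g (mkL D m x) = mkL D m (D.ρ g x) := rfl

theorem pow_smul_lev (m : ℕ) (x : Lev D m) : p ^ m • x = 0 := by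
  obtain ⟨x, rfl⟩ := mkL_surjective D m x
  rw [← map_nsmul, mkL_eq_zero]
  exact ⟨x, by rw [← Nat.cast_pow, Nat.cast_smul_eq_nsmul]⟩

theorem gLev_cont (m : ℕ) : ∃ L : IntermediateField ℚ (AlgebraicClosure ℚ),
    FiniteDimensional ℚ L ∧ ∀ σ : GQ, (∀ x ∈ L, σ x = x) → gLev D m σ = 1 := by
  obtain ⟨L, hL, h⟩ := D.isAdicContinuous m
  refine ⟨L, hL, fun σ hσ => LinearMap.ext fun x => ?_⟩
  obtain ⟨x, rfl⟩ := mkL_surjective D m x
  rw [gLev_mkL, Module.End.one_apply, ← sub_eq_zero, ← map_sub, mkL_eq_zero]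
  have h1 := h σ hσ x
  rw [PadicInt.maximalIdeal_eq_span_p, Ideal.span_singleton_pow,
    Submodule.ideal_span_singleton_smul, Submodule.mem_smul_pointwise_iff_exists] at h1
  obtain ⟨y, -, hy⟩ := h1
  exact ⟨y, hy⟩

theorem gLev_frob (m : ℕ) (ℓ : ℕ) (hℓ : ℓ.Prime) (hℓN : ¬ ℓ ∣ N) (hℓS : ℓ ∉ S) (hℓp : ℓ ≠ p)
    (A : ValuationSubring (AlgebraicClosure ℚ)) (hA : A.LiesOverPrime ℓ) (τ : GQ)
    (hτ : A.IsFrobeniusAt τ ℓ) :
    gLev D m τ * gLev D m τ -
      (CuspForm.heckeAlgebra.T hℓ hℓN hℓS : CuspForm.heckeAlgebra N 2 S) • gLev D m τ +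
      (ℓ : CuspForm.heckeAlgebra N 2 S) •
        (1 : Module.End (CuspForm.heckeAlgebra N 2 S) (Lev D m)) = 0 := by
  refine LinearMap.ext fun x => ?_
  obtain ⟨x, rfl⟩ := mkL_surjective D m x
  have h1 := congrArg (fun f : Module.End ℤ_[p] (Lam D) => mkL D m (f x))
    (D.frobenius ℓ hℓ hℓN hℓS hℓp A hA τ hτ)
  simp only [LinearMap.add_apply, LinearMap.sub_apply, Module.End.mul_apply,
    LinearMap.smul_apply, Module.End.one_apply, LinearMap.zero_apply, map_add, map_sub,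
    map_zero] at h1
  simp only [LinearMap.add_apply, LinearMap.sub_apply, Module.End.mul_apply,
    LinearMap.smul_apply, Module.End.one_apply, LinearMap.zero_apply, gLev_mkL]
  rw [smul_mkL, Nat.cast_smul_eq_nsmul]
  rw [Nat.cast_smul_eq_nsmul, map_nsmul] at h1
  exact h1

end Fermat.Agent.FlatT
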