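import Fermat.Agent.FlatT.Final
import Fermat.Agent.DefRing.Mat

/-!
Flat matrix representations.
-/

set_option autoImplicit false
set_option linter.unusedSectionVars false

noncomputable section

open Module GaloisRep Fermat.Agent.HopfOrder IsLocalRing Matrix

namespace Fermat.Agent.FlatT

open Fermat.Agent.DefRing (M2 MatCont mapRep mapRep_apply ofMat matOf)

/-- The linear action of a matrix representation. -/
def matHom {B : Type} [CommRing B] (r : GQ →* M2 B) : GQ →* Module.End B (Fin 2 → B) :=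
  ((Matrix.toLinAlgEquiv' : M2 B ≃ₐ[B] ((Fin 2 → B) →ₗ[B] (Fin 2 → B))) :
    M2 B →* ((Fin 2 → B) →ₗ[B] (Fin 2 → B))).comp r

theorem matHom_apply {B : Type} [CommRing B] (r : GQ →* M2 B) (σ : GQ) (v : Fin 2 → B) :
    matHom r σ v = r σ *ᵥ v := rfl

/-- The action of a matrix representation. -/
@[reducible] def matAct {B : Type} [CommRing B] (r : GQ →* M2 B) :
    DistribMulAction GQ (Fin 2 → B) := actOf (matHom r)

/-- All finite specialisations of `r` are flat at `p`. -/
def FlatRep (p : ℕ) (T : Type) [CommRing T] (r : GQ →* M2 T) : Prop :=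
  ∀ (B : Type) [CommRing B] [Finite B] (φ : T →+* B),
    @IsFlatMod p (Fin 2 → B) _ (matAct (mapRep φ r))

variable {p : ℕ} [hp : Fact p.Prime]

theorem FlatRep.map {T T' : Type} [CommRing T] [CommRing T'] {r : GQ →* M2 T}
    (h : FlatRep p T r) (f : T →+* T') : FlatRep p T' (mapRep f r) :=
  fun B _ _ φ => h B (φ.comp f)

/-- Flatness from a finite flat quotient. -/
theorem isFlatMod_of_ker {R : Type} [CommRing R] (r : GQ →* M2 R) {B : Type} [CommRing B]
    [Finite B] (φ : R →+* B) {M : Type} [AddCommGroup M] [Finite M] [DistribMulAction GQ M]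
    (hM : IsFlatMod p M) (ψ : (Fin 2 → R) →+ M) (hψ : ∀ (σ : GQ) v, ψ (r σ *ᵥ v) = σ • ψ v)
    (hker : ∀ v, ψ v = 0 → ∀ i, φ (v i) = 0) :
    @IsFlatMod p (Fin 2 → B) _ (matAct (mapRep φ r)) := by
  classical
  let _ := matAct (mapRep φ r)
  -- the image
  let actR : DistribMulAction GQ ψ.range :=
    { smul := fun σ x => ⟨σ • (x : M), by
        obtain ⟨v, hv⟩ := x.2
        exact ⟨r σ *ᵥ v, by rw [hψ, hv]⟩⟩
      one_smul := fun x => Subtype.ext (one_smul GQ (x : M))
      mul_smul := fun σ τ x => Subtype.ext (mul_smul σ τ (x : M))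
      smul_zero := fun σ => Subtype.ext (smul_zero σ)
      smul_add := fun σ x y => Subtype.ext (smul_add σ (x : M) (y : M)) }
  have h1 : IsFlatMod p ψ.range :=
    hM.of_injective ψ.range.subtype Subtype.val_injective fun σ x => rfl
  -- the map to `B ^ 2`
  let q : (Fin 2 → R) → (Fin 2 → B) := fun v i => φ (v i)
  have hq : ∀ v w, ψ v = ψ w → q v = q w := by
    intro v w h
    funext i
    have h2 := hker (v - w) (by rw [map_sub, h, sub_self]) i
    rw [Pi.sub_apply, map_sub, sub_eq_zero] at h2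
    exact h2
  let φb : ψ.range → (Fin 2 → B) := fun x => q (Classical.choose x.2)
  have hφb : ∀ v (hv : ψ v ∈ ψ.range), φb ⟨ψ v, hv⟩ = q v := fun v hv =>
    hq _ _ (Classical.choose_spec hv)
  have hadd : ∀ x y, φb (x + y) = φb x + φb y := by
    rintro ⟨_, v, rfl⟩ ⟨_, w, rfl⟩
    have e1 : (⟨ψ v, v, rfl⟩ + ⟨ψ w, w, rfl⟩ : ψ.range) = ⟨ψ (v + w), v + w, rfl⟩ :=
      Subtype.ext (map_add ψ v w).symm
    rw [e1, hφb _ ⟨_, rfl⟩, hφb _ ⟨_, rfl⟩, hφb _ ⟨_, rfl⟩]
    funext i
    exact map_add φ _ _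
  have hsm : ∀ (σ : GQ) (x : ψ.range), φb (σ • x) = mapRep φ r σ *ᵥ φb x := by
    rintro σ ⟨_, v, rfl⟩
    have e1 : (σ • (⟨ψ v, v, rfl⟩ : ψ.range) : ψ.range) = ⟨ψ (r σ *ᵥ v), _, rfl⟩ :=
      Subtype.ext (hψ σ v).symm
    rw [e1, hφb _ ⟨_, rfl⟩, hφb _ ⟨_, rfl⟩]
    funext i
    simp only [q, mulVec, dotProduct, Fin.sum_univ_two, map_add, map_mul, mapRep_apply]
  -- the surjection
  have := Fintype.ofFinite B
  have h2 : IsFlatMod p (Fin 2 × B → ψ.range) := IsFlatMod.pi fun _ => h1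
  let F : (Fin 2 × B → ψ.range) →+ (Fin 2 → B) :=
    AddMonoidHom.mk' (fun f => ∑ z : Fin 2 × B, z.2 • φb (f z)) fun f g => by
      simp only [Pi.add_apply, hadd, smul_add, Finset.sum_add_distrib]
  refine h2.of_surjective F ?_ ?_
  · intro w
    have h0 : φb 0 = 0 := by
      have := hadd 0 0
      rw [add_zero] at this
      exact left_eq_add.1 this
    refine ⟨fun z => if z.2 = w z.1 then ⟨ψ (Pi.single z.1 1), _, rfl⟩ else 0, ?_⟩
    change ∑ z : Fin 2 × B, z.2 • φb (if z.2 = w z.1 then ⟨ψ (Pi.single z.1 1), _, rfl⟩ else 0) = w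
    have h3 : ∀ z : Fin 2 × B, z.2 • φb (if z.2 = w z.1 then ⟨ψ (Pi.single z.1 1), _, rfl⟩ else 0) =
        if z.2 = w z.1 then z.2 • Pi.single z.1 (1 : B) else 0 := by
      intro z
      by_cases hz : z.2 = w z.1
      · rw [if_pos hz, if_pos hz, hφb _ ⟨_, rfl⟩]
        congr 1
        funext i
        change φ ((Pi.single z.1 1 : Fin 2 → R) i) = _
        by_cases hi : i = z.1
        · subst hi
          rw [Pi.single_eq_same, Pi.single_eq_same, map_one]
        · rw [Pi.single_eq_of_ne hi, Pi.single_eq_of_ne hi, map_zero]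
      · rw [if_neg hz, if_neg hz, h0, smul_zero]
    rw [Finset.sum_congr rfl fun z _ => h3 z, Fintype.sum_prod_type]
    simp only [Finset.sum_ite_eq', Finset.mem_univ, if_true, Fin.sum_univ_two]
    funext i
    fin_cases i <;> simp
  · intro σ f
    change ∑ z : Fin 2 × B, z.2 • φb (σ • f z) = mapRep φ r σ *ᵥ ∑ z : Fin 2 × B, z.2 • φb (f z)
    rw [Matrix.mulVec_sum]
    refine Finset.sum_congr rfl fun z _ => ?_
    rw [hsm, Matrix.mulVec_smul]

end Fermat.Agent.FlatT
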