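import Fermat.Agent.FlatT.Tensor
import Fermat.Agent.HeckeGal.Approx

/-!
Auxiliary results: finite quotients, annihilators, approximation by Frobenius elements.
-/

set_option autoImplicit false
set_option linter.unusedSectionVars false

open Module GaloisRep Fermat.Agent.HopfOrder IsLocalRing Polynomial
open scoped TensorProduct

namespace Fermat.Agent.FlatT

section Finite

theorem finite_quotient_span_pow {𝒪 : Type} [CommRing 𝒪] [IsDomain 𝒪]
    [IsDiscreteValuationRing 𝒪] [Finite (ResidueField 𝒪)] [CharZero 𝒪] {p : ℕ} (hp : p.Prime)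
    (m : ℕ) : Finite (𝒪 ⧸ Ideal.span {((p : 𝒪) ^ m)}) := by
  obtain ⟨k, hk⟩ := Fermat.Agent.HeckeGal.exists_pow_le_span (O := 𝒪) (c := (p : 𝒪) ^ m)
    (pow_ne_zero m (Nat.cast_ne_zero.2 hp.ne_zero))
  have h0 : Finite (𝒪 ⧸ maximalIdeal 𝒪) := ‹Finite (ResidueField 𝒪)›
  have h1 : Finite (𝒪 ⧸ maximalIdeal 𝒪 ^ k) :=
    Ideal.finite_quotient_pow (IsNoetherian.noetherian _) k
  have hle : maximalIdeal 𝒪 ^ k ≤ Ideal.span {((p : 𝒪) ^ m)} := fun x hx =>
    Ideal.mem_span_singleton.2 (hk x hx)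
  exact Finite.of_surjective _ (Ideal.Quotient.factor_surjective hle)

theorem finite_quotient_span_pow' {𝒪 T : Type} [CommRing 𝒪] [IsDomain 𝒪]
    [IsDiscreteValuationRing 𝒪] [Finite (ResidueField 𝒪)] [CharZero 𝒪] [CommRing T] [Algebra 𝒪 T]
    [Module.Finite 𝒪 T] {p : ℕ} (hp : p.Prime)
    (m : ℕ) : Finite (T ⧸ Ideal.span {((p : T) ^ m)}) := by
  classical
  have h0 := finite_quotient_span_pow (𝒪 := 𝒪) hp m
  obtain ⟨s, hs⟩ := (Module.Finite.fg_top : (⊤ : Submodule 𝒪 T).FG)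
  let f : (s → 𝒪 ⧸ Ideal.span {((p : 𝒪) ^ m)}) → T ⧸ Ideal.span {((p : T) ^ m)} := fun a =>
    Ideal.Quotient.mk _ (∑ i, (Quotient.out (a i) : 𝒪) • (i : T))
  refine Finite.of_surjective f fun y => ?_
  obtain ⟨t, rfl⟩ := Ideal.Quotient.mk_surjective y
  have ht : t ∈ Submodule.span 𝒪 (s : Set T) := by rw [hs]; trivial
  obtain ⟨b, hb⟩ := (Submodule.mem_span_finset' ).1 ht
  refine ⟨fun i => Ideal.Quotient.mk _ (b i), ?_⟩
  rw [Ideal.Quotient.eq, ← hb, ← Finset.sum_sub_distrib]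
  refine Ideal.sum_mem _ fun i _ => ?_
  rw [← sub_smul, Ideal.mem_span_singleton]
  have h1 : Ideal.Quotient.mk (Ideal.span {((p : 𝒪) ^ m)})
      (Quotient.out (Ideal.Quotient.mk (Ideal.span {((p : 𝒪) ^ m)}) (b i)) : 𝒪) =
      Ideal.Quotient.mk (Ideal.span {((p : 𝒪) ^ m)}) (b i) := Quotient.out_eq' _
  rw [Ideal.Quotient.eq, Ideal.mem_span_singleton] at h1
  obtain ⟨c, hc⟩ := h1
  rw [hc]
  exact ⟨c • (i : T), by rw [mul_smul, Algebra.smul_def ((p : 𝒪) ^ m), map_pow, map_natCast]⟩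

theorem pow_mem_of_finite_quotient {T : Type} [CommRing T] [IsLocalRing T] {p : ℕ}
    (hpT : (p : T) ∈ maximalIdeal T) (I : Ideal T) [Finite (T ⧸ I)] :
    ∃ k : ℕ, (p : T) ^ k ∈ I := by
  obtain ⟨i, j, hij, h⟩ := Finite.exists_ne_map_eq_of_infinite
    (fun k : ℕ => Ideal.Quotient.mk I ((p : T) ^ k))
  wlog hlt : i < j generalizing i j
  · exact this j i hij.symm h.symm (lt_of_le_of_ne (not_lt.1 hlt) hij.symm)
  rw [Ideal.Quotient.eq] at h
  obtain ⟨d, rfl⟩ := Nat.exists_eq_add_of_lt hlt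
  have h1 : (p : T) ^ i - (p : T) ^ (i + d + 1) = (p : T) ^ i * (1 - (p : T) ^ (d + 1)) := by
    ring
  have hu : IsUnit (1 - (p : T) ^ (d + 1)) := by
    have hmem : (p : T) ^ (d + 1) ∈ maximalIdeal T := Ideal.pow_mem_of_mem _ hpT _ (Nat.succ_pos d)
    by_contra hcon
    have h2 : (1 - (p : T) ^ (d + 1)) ∈ maximalIdeal T := hcon
    have h3 := Ideal.add_mem _ h2 hmem
    rw [sub_add_cancel] at h3
    exact (Ideal.ne_top_iff_one _).1 (Ideal.IsPrime.ne_top inferInstance) h3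
  refine ⟨i, ?_⟩
  rw [h1] at h
  exact (Ideal.unit_mul_mem_iff_mem I hu).1 (by rw [mul_comm]; exact h)

theorem exists_pow_smul_eq_bot {T X : Type} [CommRing T] [IsLocalRing T] [AddCommGroup X]
    [Module T X] [Finite X] : ∃ n : ℕ, ∀ t ∈ maximalIdeal T ^ n, ∀ x : X, t • x = 0 := by
  have hfin : Module.Finite T X := Module.Finite.of_finite
  obtain ⟨n, hn⟩ := IsArtinian.monotone_stabilizes (R := T) (M := X)
    ⟨fun n => OrderDual.toDual (maximalIdeal T ^ n • (⊤ : Submodule T X)), fun a b hab =>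
      Submodule.smul_mono_left (Ideal.pow_le_pow_right hab)⟩
  have h1 : maximalIdeal T ^ n • (⊤ : Submodule T X) =
      maximalIdeal T ^ (n + 1) • (⊤ : Submodule T X) := hn (n + 1) (Nat.le_succ n)
  have h2 : maximalIdeal T ^ n • (⊤ : Submodule T X) = ⊥ := by
    refine Submodule.eq_bot_of_le_smul_of_le_jacobson_bot (maximalIdeal T) _
      (IsNoetherian.noetherian _) ?_ (IsLocalRing.maximalIdeal_le_jacobson _)
    rw [← Submodule.mul_smul, ← pow_succ', ← h1]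
  refine ⟨n, fun t ht x => ?_⟩
  have h3 := Submodule.smul_mem_smul ht (Submodule.mem_top : x ∈ (⊤ : Submodule T X))
  rw [h2, Submodule.mem_bot] at h3
  exact h3

end Finite

section Ann

/-- Annihilators of base changes. -/
theorem annihilator_tensor {R T M : Type} [CommRing R] [CommRing T] [Algebra R T]
    [AddCommGroup M] [Module R M] (J : Ideal T) (α : M →ₗ[R] T ⧸ J) (x₀ : M) (d : ℤ)
    (hα : α x₀ = Ideal.Quotient.mk J (d : T)) {t : T}
    (ht : t ∈ Module.annihilator T (T ⊗[R] M)) : (d : T) * t ∈ J := by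
  rw [Module.mem_annihilator] at ht
  have h1 := congrArg (LinearMap.liftBaseChange T α) (ht (1 ⊗ₜ x₀))
  rw [map_smul, LinearMap.liftBaseChange_tmul, one_smul, hα, map_zero] at h1
  rw [← Ideal.Quotient.eq_zero_iff_mem, mul_comm, map_mul, ← h1]
  rfl

theorem isUnit_of_coprime {T : Type} [CommRing T] [IsLocalRing T] {p : ℕ} (hp : p.Prime)
    (hpT : (p : T) ∈ maximalIdeal T) {u : ℤ} (hu : ¬ (p : ℤ) ∣ u) : IsUnit (u : T) := by
  obtain ⟨a, b, hab⟩ := ((Nat.prime_iff_prime_int.1 hp).irreducible.coprime_iff_not_dvd.2 hu)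
  by_contra hcon
  have h1 : (u : T) ∈ maximalIdeal T := hcon
  have h2 : (a : T) * (p : T) + (b : T) * (u : T) = 1 := by exact_mod_cast congrArg (Int.cast : ℤ → T) hab
  refine (Ideal.ne_top_iff_one (maximalIdeal T)).1 (Ideal.IsPrime.ne_top inferInstance) ?_
  rw [← h2]
  exact Ideal.add_mem _ (Ideal.mul_mem_left _ _ hpT) (Ideal.mul_mem_left _ _ h1)

theorem mem_span_of_mul_mem {T : Type} [CommRing T] [IsLocalRing T] [IsAddTorsionFree T] {p : ℕ}
    (hp : p.Prime) (hpT : (p : T) ∈ maximalIdeal T) {c : ℕ} {u : ℤ} (hu : ¬ (p : ℤ) ∣ u)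
    {m k : ℕ} (hm : m = c + k) {t : T}
    (h : (((p : ℤ) ^ c * u : ℤ) : T) * t ∈ Ideal.span {((p : T) ^ m)}) :
    t ∈ Ideal.span {((p : T) ^ k)} := by
  obtain ⟨w, hw⟩ := isUnit_of_coprime hp hpT hu
  rw [Ideal.mem_span_singleton] at h ⊢
  obtain ⟨s, hs⟩ := h
  have h1 : (p : T) ^ c * ((u : T) * t) = (p : T) ^ c * ((p : T) ^ k * s) := by
    rw [← mul_assoc, ← mul_assoc, ← pow_add, ← hm, ← hs]
    push_cast
    ring
  have h2 : (u : T) * t = (p : T) ^ k * s := by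
    rw [← sub_eq_zero, ← mul_sub, ← Nat.cast_pow, ← nsmul_eq_mul,
      smul_eq_zero_iff_right (pow_ne_zero c hp.ne_zero)] at h1
    exact sub_eq_zero.1 h1
  refine ⟨(↑w⁻¹ : T) * s, ?_⟩
  have h3 : t = (↑w⁻¹ : T) * ((u : T) * t) := by
    rw [← hw, Units.inv_mul_cancel_left]
  rw [h3, h2]
  ring

end Ann

end Fermat.Agent.FlatT
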