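import Mathlib

/-!
Modules over a group algebra satisfying the characteristic polynomial relations of a residually
absolutely irreducible two dimensional representation.
-/

set_option autoImplicit false
set_option linter.unusedSectionVars false

open Module

namespace Fermat.Agent.FlatT

section Kernel

variable {T V X G : Type*} [CommRing T] [AddCommGroup V] [Module T V] [AddCommGroup X]
  [Module T X] [Group G]

/-- The anti-involution `g ↦ δ(g) g⁻¹` of the group algebra. -/
noncomputable def starHom (δ : G →* T) : MonoidAlgebra T G →ₐ[T] (MonoidAlgebra T G)ᵐᵒᵖ :=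
  MonoidAlgebra.lift T (MonoidAlgebra T G)ᵐᵒᵖ G
    { toFun := fun g => MulOpposite.op (MonoidAlgebra.single g⁻¹ (δ g))
      map_one' := by
        rw [inv_one, map_one]
        rfl
      map_mul' := fun g h => by
        rw [← MulOpposite.op_mul, MonoidAlgebra.single_mul_single, mul_inv_rev, map_mul,
          mul_comm (δ h)] }

/-- The anti-involution `g ↦ δ(g) g⁻¹` of the group algebra. -/
noncomputable def star (δ : G →* T) (x : MonoidAlgebra T G) : MonoidAlgebra T G :=
  MulOpposite.unop (starHom δ x)

theorem star_single (δ : G →* T) (g : G) :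
    star δ (MonoidAlgebra.single g 1) = MonoidAlgebra.single g⁻¹ (δ g) := by
  unfold star starHom
  rw [MonoidAlgebra.lift_single, one_smul]
  rfl

theorem star_mul (δ : G →* T) (x y : MonoidAlgebra T G) :
    star δ (x * y) = star δ y * star δ x := by
  unfold star
  rw [map_mul, MulOpposite.unop_mul]

theorem star_add (δ : G →* T) (x y : MonoidAlgebra T G) :
    star δ (x + y) = star δ x + star δ y := by
  unfold star
  rw [map_add, MulOpposite.unop_add]

theorem star_smul (δ : G →* T) (c : T) (x : MonoidAlgebra T G) :
    star δ (c • x) = c • star δ x := by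
  unfold star
  rw [map_smul, MulOpposite.unop_smul]

/-- the algebra homomorphism of a representation. -/
noncomputable abbrev act (σ : G →* Module.End T X) : MonoidAlgebra T G →ₐ[T] Module.End T X :=
  MonoidAlgebra.lift T (Module.End T X) G σ

theorem act_add_star (ρ : G →* Module.End T V) (σ : G →* Module.End T X) (δ : G →* T)
    (hX : ∀ g, σ g + δ g • σ g⁻¹ = LinearMap.trace T V (ρ g) • (1 : Module.End T X))
    (x : MonoidAlgebra T G) :
    act σ x + act σ (star δ x) =
      LinearMap.trace T V (act ρ x) • (1 : Module.End T X) := by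
  induction x using MonoidAlgebra.induction_on with
  | of g =>
    rw [MonoidAlgebra.of_apply, star_single, MonoidAlgebra.lift_single, one_smul,
      MonoidAlgebra.lift_single, MonoidAlgebra.lift_single, one_smul]
    exact hX g
  | add x y hx hy =>
    rw [star_add, map_add, map_add, map_add, map_add, add_smul, ← hx, ← hy]
    abel
  | smul r x hx =>
    rw [star_smul, map_smul, map_smul, map_smul, map_smul, smul_assoc, ← hx, smul_add]

variable (b : Basis (Fin 2) T V)

include b in
/-- Elements of the group algebra acting as zero on `V` act as zero on `X`. -/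
theorem act_eq_zero (ρ : G →* Module.End T V) (σ : G →* Module.End T X) (δ : G →* T)
    (hspan : Submodule.span T (Set.range ρ) = ⊤)
    (hX : ∀ g, σ g + δ g • σ g⁻¹ = LinearMap.trace T V (ρ g) • (1 : Module.End T X))
    (h2 : ∀ x : X, x + x = 0 → x = 0)
    (x : MonoidAlgebra T G) (hx : act ρ x = 0) : act σ x = 0 := by
  have hadd := act_add_star ρ σ δ hX
  have hstar : ∀ x, act ρ x = 0 → act σ (star δ x) = - act σ x := by
    intro x hx
    have := hadd x
    rw [hx, map_zero, zero_smul] at this
    exact eq_neg_of_add_eq_zero_right this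
  have E1 : ∀ a x, act ρ x = 0 → act σ a * act σ x = act σ x * act σ (star δ a) := by
    intro a x hx
    have h1 : act ρ (a * x) = 0 := by rw [map_mul, hx, mul_zero]
    have h3 := hstar _ h1
    rw [star_mul, map_mul, hstar x hx, map_mul, neg_mul] at h3
    exact (neg_injective h3).symm
  have E2 : ∀ a b x, act ρ x = 0 → act σ a * (act σ b * act σ x) =
      act σ b * (act σ a * act σ x) := by
    intro a b x hx
    have h1 : act ρ (b * x) = 0 := by rw [map_mul, hx, mul_zero]
    have h3 := E1 a (b * x) h1
    rw [map_mul, mul_assoc, ← E1 a x hx] at h3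
    exact h3
  have hsurj : ∀ M : Module.End T V, ∃ a, act ρ a = M := by
    intro M
    have hM : M ∈ Submodule.span T (Set.range ρ) := by rw [hspan]; trivial
    induction hM using Submodule.span_induction with
    | mem M hM =>
      obtain ⟨g, rfl⟩ := hM
      exact ⟨MonoidAlgebra.single g 1, by rw [MonoidAlgebra.lift_single, one_smul]⟩
    | zero => exact ⟨0, map_zero _⟩
    | add M M' _ _ h h' =>
      obtain ⟨a, rfl⟩ := h
      obtain ⟨a', rfl⟩ := h'
      exact ⟨a + a', map_add _ _ _⟩
    | smul c M _ h =>
      obtain ⟨a, rfl⟩ := h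
      exact ⟨c • a, map_smul _ _ _⟩
  obtain ⟨a, ha⟩ := hsurj ((b.coord 1).smulRight (b 0))
  obtain ⟨a', ha'⟩ := hsurj ((b.coord 0).smulRight (b 1))
  let c := a * a' - a' * a
  have hc : act ρ (c * c) = 1 := by
    simp only [c, map_mul, map_sub, ha, ha']
    refine b.ext fun i => ?_
    fin_cases i <;> simp
  have hcx : ∀ x, act ρ x = 0 → act σ c * act σ x = 0 := by
    intro x hx
    simp only [c, map_sub, map_mul, sub_mul, mul_assoc]
    rw [E2 a a' x hx, sub_self]
  let κ := 1 - c * c
  have hκ : act ρ κ = 0 := by
    simp only [κ, map_sub, map_one, hc, sub_self]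
  have hκx : ∀ x, act ρ x = 0 → act σ κ * act σ x = act σ x := by
    intro x hx
    simp only [κ, map_sub, map_one, map_mul, sub_mul, one_mul, mul_assoc, hcx x hx, mul_zero,
      sub_zero]
  have E4 : ∀ x y, act ρ x = 0 → act ρ y = 0 →
      act σ x * act σ y = - (act σ y * act σ x) := by
    intro x y hx hy
    rw [E1 x y hy, hstar x hx, mul_neg]
  have h5 : act σ x + act σ x = 0 := by
    have h6 := E4 κ κ hκ hκ
    have h7 : act σ κ * act σ κ + act σ κ * act σ κ = 0 := by
      nth_rewrite 2 [h6]
      exact add_neg_cancel _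
    have h8 := congrArg (· * act σ x) h7
    simp only [add_mul, zero_mul, mul_assoc, hκx x hx] at h8
    exact h8
  refine LinearMap.ext fun v => h2 _ ?_
  have := congrArg (fun f : Module.End T X => f v) h5
  exact this

theorem act_surjective (ρ : G →* Module.End T V)
    (hspan : Submodule.span T (Set.range ρ) = ⊤) : Function.Surjective (act ρ) := by
  intro M
  have hM : M ∈ Submodule.span T (Set.range ρ) := by rw [hspan]; trivial
  induction hM using Submodule.span_induction with
  | mem M hM =>
    obtain ⟨g, rfl⟩ := hM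
    exact ⟨MonoidAlgebra.single g 1, by rw [MonoidAlgebra.lift_single, one_smul]⟩
  | zero => exact ⟨0, map_zero _⟩
  | add M M' _ _ h h' =>
    obtain ⟨a, rfl⟩ := h
    obtain ⟨a', rfl⟩ := h'
    exact ⟨a + a', map_add _ _ _⟩
  | smul c M _ h =>
    obtain ⟨a, rfl⟩ := h
    exact ⟨c • a, map_smul _ _ _⟩

include b in
/-- The action of the group algebra on `X` factors through the endomorphism ring of `V`. -/
theorem exists_lift (ρ : G →* Module.End T V) (σ : G →* Module.End T X) (δ : G →* T)
    (hspan : Submodule.span T (Set.range ρ) = ⊤)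
    (hX : ∀ g, σ g + δ g • σ g⁻¹ = LinearMap.trace T V (ρ g) • (1 : Module.End T X))
    (h2 : ∀ x : X, x + x = 0 → x = 0) :
    ∃ Ψ : Module.End T V →ₐ[T] Module.End T X, ∀ g, Ψ (ρ g) = σ g := by
  have hsurj := act_surjective ρ hspan
  have hwd : ∀ a a', act ρ a = act ρ a' → act σ a = act σ a' := by
    intro a a' h
    have h1 := act_eq_zero b ρ σ δ hspan hX h2 (a - a') (by rw [map_sub, h, sub_self])
    rw [map_sub] at h1
    exact sub_eq_zero.1 h1
  let Ψ₀ : Module.End T V → Module.End T X := fun M => act σ (Function.surjInv hsurj M)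
  have hΨ : ∀ a, Ψ₀ (act ρ a) = act σ a := fun a => hwd _ _ (Function.surjInv_eq hsurj _)
  refine ⟨{ toFun := Ψ₀, map_one' := ?_, map_mul' := ?_, map_zero' := ?_, map_add' := ?_,
            commutes' := ?_ }, fun g => ?_⟩
  · rw [← map_one (act ρ), hΨ, map_one]
  · intro M M'
    obtain ⟨a, rfl⟩ := hsurj M
    obtain ⟨a', rfl⟩ := hsurj M'
    rw [← map_mul, hΨ, hΨ, hΨ, map_mul]
  · change Ψ₀ 0 = 0
    rw [← map_zero (act ρ), hΨ, map_zero]
  · intro M M'
    obtain ⟨a, rfl⟩ := hsurj M
    obtain ⟨a', rfl⟩ := hsurj M'
    change Ψ₀ _ = Ψ₀ _ + Ψ₀ _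
    rw [← map_add, hΨ, hΨ, hΨ, map_add]
  · intro r
    rw [← AlgHom.commutes (act ρ), hΨ, AlgHom.commutes]
  · have h1 := hΨ (MonoidAlgebra.single g 1)
    rw [MonoidAlgebra.lift_single, one_smul, MonoidAlgebra.lift_single, one_smul] at h1
    exact h1

include b in
/-- The embedding of `V` into a power of `X`, up to the annihilator of `X`. -/
theorem exists_embedding (Ψ : Module.End T V →ₐ[T] Module.End T X) :
    ∃ F : V →ₗ[T] (X → X), (∀ (A : Module.End T V) v x, F (A v) x = Ψ A (F v x)) ∧
      ∀ v, F v = 0 → v ∈ (Module.annihilator T X) • (⊤ : Submodule T V) := by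
  refine ⟨{ toFun := fun v x => Ψ ((b.coord 0).smulRight v) x
            map_add' := fun v w => ?_
            map_smul' := fun c v => ?_ }, fun A v x => ?_, fun v hv => ?_⟩
  · funext x
    have h1 : (b.coord 0).smulRight (v + w) = (b.coord 0).smulRight v +
        (b.coord 0).smulRight w := by
      ext; simp
    change Ψ _ x = Ψ _ x + Ψ _ x
    rw [h1, map_add, LinearMap.add_apply]
  · funext x
    have h1 : (b.coord 0).smulRight (c • v) = c • (b.coord 0).smulRight v := by
      refine LinearMap.ext fun w => ?_
      simp only [LinearMap.smulRight_apply, LinearMap.smul_apply]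
      exact smul_comm _ _ _
    change Ψ _ x = c • Ψ _ x
    rw [h1, map_smul, LinearMap.smul_apply]
  · have h1 : (b.coord 0).smulRight (A v) = A * (b.coord 0).smulRight v := by
      ext w; simp
    change Ψ _ x = Ψ A (Ψ _ x)
    rw [h1, map_mul, Module.End.mul_apply]
  · -- coordinates of `v` annihilate `X`
    have hv' : ∀ x, Ψ ((b.coord 0).smulRight v) x = 0 := fun x => congrFun hv x
    have key : ∀ i, ∀ x, (b.repr v i) • Ψ ((b.coord 0).smulRight (b 0)) x = 0 := by
      intro i x
      have h1 : (b.coord i).smulRight (b 0) * (b.coord 0).smulRight v =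
          (b.repr v i) • (b.coord 0).smulRight (b 0) := by
        ext w
        simp [smul_smul, mul_comm]
      have h3 := congrArg (fun B => Ψ B x) h1
      simp only [map_mul, map_smul, Module.End.mul_apply, LinearMap.smul_apply, hv', map_zero] at h3
      exact h3.symm
    have hann : ∀ i, b.repr v i ∈ Module.annihilator T X := by
      intro i
      rw [Module.mem_annihilator]
      intro x
      have h1 : (1 : Module.End T V) = ∑ j, (b.coord 0).smulRight (b j) *
          ((b.coord 0).smulRight (b 0) * (b.coord j).smulRight (b 0)) := by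
        refine b.ext fun k => ?_
        fin_cases k <;> simp
      have h3 := congrArg (fun B => Ψ B x) h1
      simp only [map_one, Module.End.one_apply, map_sum, map_mul, LinearMap.sum_apply,
        Module.End.mul_apply] at h3
      rw [h3, Finset.smul_sum]
      refine Finset.sum_eq_zero fun j _ => ?_
      rw [← map_smul, key i, map_zero]
    rw [← b.sum_repr v]
    exact Submodule.sum_mem _ fun i _ => Submodule.smul_mem_smul (hann i) Submodule.mem_top

end Kernel

end Fermat.Agent.FlatT
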