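import Fermat.Agent.FlatT.Level

/-!
Faithfulness of the levels of a Hecke-Galois module after base change.
-/

set_option autoImplicit false
set_option linter.unusedSectionVars false

noncomputable section

open Module GaloisRep Fermat.Agent.HopfOrder IsLocalRing
open scoped TensorProduct

namespace Fermat.Agent.FlatT

open Fermat.Agent.HGModule

variable {p : ℕ} [hp : Fact p.Prime] {N : ℕ} [NeZero N] {S : Set ℕ} (D : HeckeGaloisModule p N S)
  {T : Type} [CommRing T] [IsLocalRing T] [IsAdicComplete (maximalIdeal T) T]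

theorem exists_functional_hecke [IsReduced (CuspForm.heckeAlgebra N 2 S)]
    [Module.Finite ℤ (CuspForm.heckeAlgebra N 2 S)]
    [IsAddTorsionFree (CuspForm.heckeAlgebra N 2 S)] :
    ∃ (ψ : D.H →+ CuspForm.heckeAlgebra N 2 S) (h₀ : D.H) (d : ℤ), d ≠ 0 ∧
      (∀ t h, ψ (D.θ t h) = t * ψ h) ∧ ψ h₀ = (d : CuspForm.heckeAlgebra N 2 S) := by
  letI : Module (CuspForm.heckeAlgebra N 2 S) D.H := Module.compHom D.H D.θ
  have htf : IsAddTorsionFree D.H := Module.isTorsionFree_int_iff_isAddTorsionFree.1 inferInstance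
  obtain ⟨ψ, h₀, d, hd, hψ⟩ := exists_functional (R := CuspForm.heckeAlgebra N 2 S) (H := D.H)
    (fun r hr => D.θ_injective (by
      rw [map_zero]
      exact LinearMap.ext fun h => hr h))
  exact ⟨ψ.toAddMonoidHom, h₀, d, hd, fun t h => ψ.map_smul t h, hψ⟩

/-- The map on the Tate module. -/
theorem exists_beta (hpT : (p : T) ∈ maximalIdeal T) (π : CuspForm.heckeAlgebra N 2 S →+* T)
    (ψ : D.H →+ CuspForm.heckeAlgebra N 2 S) (hψ : ∀ t h, ψ (D.θ t h) = t * ψ h) :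
    ∃ β : Lam D →+ T, (∀ t x, β ((D.θ t).baseChange ℤ_[p] x) = π t * β x) ∧
      (∀ (z : ℕ) x, β ((z : ℤ_[p]) • x) = (z : T) * β x) ∧ ∀ h, β (1 ⊗ₜ h) = π (ψ h) := by
  letI : Algebra ℤ_[p] T := (QuadRep.padicHom p T hpT).toAlgebra
  let l : D.H →ₗ[ℤ] T := (π.toAddMonoidHom.comp ψ).toIntLinearMap
  let β : Lam D →ₗ[ℤ_[p]] T := LinearMap.liftBaseChange ℤ_[p] l
  have hβ : ∀ (z : ℤ_[p]) (h : D.H), β (z ⊗ₜ h) = z • π (ψ h) := fun z h =>
    LinearMap.liftBaseChange_tmul ℤ_[p] l z h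
  refine ⟨β.toAddMonoidHom, fun t x => ?_, fun z x => ?_, fun h => ?_⟩
  · change β _ = π t * β x
    induction x using TensorProduct.induction_on with
    | zero => simp
    | tmul z h =>
      rw [LinearMap.baseChange_tmul, hβ, hβ, hψ, map_mul, mul_smul_comm]
    | add x y hx hy => rw [map_add, map_add, map_add, hx, hy, mul_add]
  · change β _ = _ * β x
    rw [map_smul, Algebra.smul_def, map_natCast]
  · exact (hβ 1 h).trans (one_smul _ _)

theorem exists_alpha (hpT : (p : T) ∈ maximalIdeal T) [Algebra (CuspForm.heckeAlgebra N 2 S) T]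
    (ψ : D.H →+ CuspForm.heckeAlgebra N 2 S) (hψ : ∀ t h, ψ (D.θ t h) = t * ψ h) (h₀ : D.H)
    {d : ℤ} (hd : ψ h₀ = (d : CuspForm.heckeAlgebra N 2 S)) (m : ℕ) :
    ∃ (α : Lev D m →ₗ[CuspForm.heckeAlgebra N 2 S] T ⧸ Ideal.span {((p : T) ^ m)})
      (x₀ : Lev D m), α x₀ = Ideal.Quotient.mk _ (d : T) := by
  obtain ⟨β, hβ1, hβ2, hβ3⟩ := exists_beta D hpT
    (algebraMap (CuspForm.heckeAlgebra N 2 S) T) ψ hψ
  let γ : Lam D →+ T ⧸ Ideal.span {((p : T) ^ m)} :=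
    (Ideal.Quotient.mk (Ideal.span {((p : T) ^ m)})).toAddMonoidHom.comp β
  have hker : (lamSub D m).toAddSubgroup ≤ γ.ker := by
    rintro _ ⟨y, rfl⟩
    rw [AddMonoidHom.mem_ker]
    change Ideal.Quotient.mk _ (β ((p : ℤ_[p]) ^ m • y)) = 0
    have h1 := hβ2 (p ^ m) y
    rw [Nat.cast_pow] at h1
    rw [h1, Ideal.Quotient.eq_zero_iff_mem, Nat.cast_pow]
    exact Ideal.mul_mem_right _ _ (Ideal.mem_span_singleton_self _)
  let α₀ : Lev D m →+ T ⧸ Ideal.span {((p : T) ^ m)} :=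
    QuotientAddGroup.lift (lamSub D m).toAddSubgroup γ hker
  have hα₀ : ∀ x, α₀ (mkL D m x) = Ideal.Quotient.mk _ (β x) := fun x => rfl
  refine ⟨{ toFun := α₀, map_add' := map_add _, map_smul' := fun t x => ?_ },
    mkL D m (1 ⊗ₜ h₀), ?_⟩
  · obtain ⟨x, rfl⟩ := mkL_surjective D m x
    rw [smul_mkL, hα₀, hα₀, hβ1, RingHom.id_apply, Algebra.smul_def, map_mul]
    rfl
  · refine (hα₀ _).trans ?_
    rw [hβ3, hd, map_intCast]

end Fermat.Agent.FlatT
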