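import Fermat.Agent.FlatT.FlatMRep
import Fermat.Agent.RTE.PointP

/-!
Flatness at `p` of the normalised representation of an elliptic curve with good reduction at `p`.
-/

set_option autoImplicit false

noncomputable section

open Module IsLocalRing Fermat.Agent.DefRing Fermat.Agent.RTE

namespace Fermat.Agent.FlatT

/-- The component of an elliptic curve with good reduction at `p` is flat. -/
theorem flatM_rN (E : WeierstrassCurve ℚ) [E.IsElliptic] (p : ℕ) [Fact p.Prime]
    {W : WeierstrassCurve ℤ} (hWE : W.IsIntegralModelOf E) (hpΔ : ¬ (p : ℤ) ∣ W.Δ)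
    {O : Type} [CommRing O] [IsLocalRing O] [IsAdicComplete (maximalIdeal O) O]
    [IsNoetherianRing O] [Finite (ResidueField O)] (f : ℤ_[p] →+* O)
    (sd : SliceData (rbE E p f)) : RTan.FlatM p O (rN E p f sd) :=
  (((flatRep_matE E p hWE hpΔ).map f).conj (uN E p f sd)).flatM O

end Fermat.Agent.FlatT
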