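import Fermat.Agent.FlatT.Morita
import Fermat.Agent.HopfOrder.Closure2

/-!
Flatness of the finite quotients of an adic representation from the flatness of a module on which
the group algebra acts through the endomorphism ring.
-/

set_option autoImplicit false
set_option linter.unusedSectionVars false

open Module GaloisRep Fermat.Agent.HopfOrder

namespace Fermat.Agent.FlatT

/-- The action attached to a representation. -/
@[reducible] noncomputable def actOf {G T X : Type*} [Group G] [CommRing T] [AddCommGroup X]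
    [Module T X] (σ : G →* Module.End T X) : DistribMulAction G X where
  smul g x := σ g x
  one_smul x := by
    change σ 1 x = x
    rw [map_one]; rfl
  mul_smul g h x := by
    change σ (g * h) x = σ g (σ h x)
    rw [map_mul]; rfl
  smul_zero g := map_zero (σ g)
  smul_add g x y := map_add (σ g) x y

/-- The representation on a quotient by a stable submodule. -/
noncomputable def quotHom {G T V : Type*} [Group G] [CommRing T] [AddCommGroup V] [Module T V]
    (ρ : G →* Module.End T V) (W : Submodule T V) (hW : ∀ g, W ≤ W.comap (ρ g)) :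
    G →* Module.End T (V ⧸ W) where
  toFun g := W.mapQ W (ρ g) (hW g)
  map_one' := by
    refine LinearMap.ext fun x => ?_
    obtain ⟨v, rfl⟩ := W.mkQ_surjective x
    rw [Submodule.mkQ_apply, Submodule.mapQ_apply, map_one]
    rfl
  map_mul' g h := by
    refine LinearMap.ext fun x => ?_
    obtain ⟨v, rfl⟩ := W.mkQ_surjective x
    rw [Module.End.mul_apply, Submodule.mkQ_apply, Submodule.mapQ_apply, Submodule.mapQ_apply,
      Submodule.mapQ_apply, map_mul]
    rfl

theorem level_stable {T : Type} [CommRing T] [IsLocalRing T] (ρ : GaloisRepAdic T) (I : Ideal T)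
    (g : GQ) : I • (⊤ : Submodule T ρ.V) ≤ (I • (⊤ : Submodule T ρ.V)).comap (ρ.ρ g) := by
  rw [← Submodule.map_le_iff_le_comap, Submodule.map_smul'']
  exact Submodule.smul_mono le_rfl le_top

theorem isFlatMod_quot {p : ℕ} [Fact p.Prime] {T : Type} [CommRing T] {V : Type}
    [AddCommGroup V] [Module T V] (b : Basis (Fin 2) T V) (ρ : GQ →* Module.End T V)
    (W : Submodule T V) (hW : ∀ g, W ≤ W.comap (ρ g)) {X : Type} [AddCommGroup X] [Module T X]
    [Finite X] (σ : GQ →* Module.End T X) (hflat : @IsFlatMod p X _ (actOf σ))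
    (hann : Module.annihilator T X • (⊤ : Submodule T V) ≤ W)
    (Ψ : Module.End T V →ₐ[T] Module.End T X) (hΨ : ∀ g, Ψ (ρ g) = σ g) :
    @IsFlatMod p (V ⧸ W) _ (actOf (quotHom ρ W hW)) := by
  obtain ⟨F, hF, hker⟩ := exists_embedding b Ψ
  let K := LinearMap.ker F
  have hK : ∀ g, K ≤ K.comap (ρ g) := by
    intro g v hv
    rw [LinearMap.mem_ker] at hv
    rw [Submodule.mem_comap, LinearMap.mem_ker]
    funext x
    rw [hF, hv, Pi.zero_apply, map_zero]
  have hKW : K ≤ W := fun v hv => hann (hker v hv)
  let _ := actOf σ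
  let _ := actOf (quotHom ρ K hK)
  let _ := actOf (quotHom ρ W hW)
  have h1 : IsFlatMod p (X → X) := IsFlatMod.pi fun _ => hflat
  have h2 : IsFlatMod p (V ⧸ K) := by
    refine h1.of_injective (K.liftQ F le_rfl).toAddMonoidHom ?_ ?_
    · exact LinearMap.ker_eq_bot.1 (Submodule.ker_liftQ_eq_bot _ _ _ le_rfl)
    · intro g x
      obtain ⟨v, rfl⟩ := K.mkQ_surjective x
      funext x
      exact (hF (ρ g) v x).trans (congrArg (fun B => B (F v x)) (hΨ g))
  have hfin : Finite (V ⧸ K) :=
    Finite.of_injective (K.liftQ F le_rfl)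
      (LinearMap.ker_eq_bot.1 (Submodule.ker_liftQ_eq_bot _ _ _ le_rfl))
  refine h2.of_surjective (K.mapQ W LinearMap.id hKW).toAddMonoidHom ?_ ?_
  · intro x
    obtain ⟨v, rfl⟩ := W.mkQ_surjective x
    exact ⟨K.mkQ v, rfl⟩
  · intro g x
    obtain ⟨v, rfl⟩ := K.mkQ_surjective x
    rfl

end Fermat.Agent.FlatT
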