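import Fermat.Agent.FlatT.Misc

/-!
The characteristic polynomial relation on the base change of a Hecke-Galois module.
-/

set_option autoImplicit false
set_option linter.unusedSectionVars false

open Module GaloisRep Fermat.Agent.HopfOrder IsLocalRing Polynomial
open scoped TensorProduct

namespace Fermat.Agent.FlatT

open Fermat.Agent.HeckeGal

theorem det_sub_mem {A V : Type*} [CommRing A] [Nontrivial A] [AddCommGroup V] [Module A V]
    [Module.Free A V] [Module.Finite A V] (hV : Module.finrank A V = 2) (I : Ideal A)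
    (f g : Module.End A V) (h : ∀ v, f v - g v ∈ I • (⊤ : Submodule A V)) :
    LinearMap.det f - LinearMap.det g ∈ I := by
  have h1 := FrobDensity.charpoly_map_eq I f g h
  rw [FrobDensity.charpoly_eq_of_finrank hV f, FrobDensity.charpoly_eq_of_finrank hV g] at h1
  have h2 := congrArg (fun q : (A ⧸ I)[X] => q.coeff 0) h1
  simp [coeff_C] at h2
  exact Ideal.Quotient.eq.mp h2

theorem pow_add_pow_eq_lucas {O A : Type*} [CommRing O] [Ring A] [Algebra O A] (x y : A) (a d : O)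
    (hxy : x * y = y * x) (h1 : x + y = a • (1 : A)) (h2 : x * y = d • (1 : A)) (j : ℕ) :
    x ^ j + y ^ j = lucas a d j • (1 : A) := by
  induction j using Nat.twoStepInduction with
  | zero => rw [pow_zero, pow_zero, lucas, two_smul]
  | one => rw [pow_one, pow_one, h1, lucas]
  | more j ih1 ih2 =>
    have e : x ^ (j + 2) + y ^ (j + 2) = (x + y) * (x ^ (j + 1) + y ^ (j + 1))
        - (x * y) * (x ^ j + y ^ j) := by
      have e1 : y * x ^ (j + 1) = x * y * x ^ j := by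
        rw [pow_succ', ← mul_assoc, ← hxy]
      have e2 : x * y ^ (j + 1) = x * y * y ^ j := by
        rw [pow_succ', ← mul_assoc]
      rw [add_mul, mul_add, mul_add, mul_add, e1, e2, ← pow_succ', ← pow_succ']
      abel
    rw [e, h1, h2, ih1, ih2, lucas, sub_smul, mul_smul, mul_smul, smul_mul_assoc, one_mul,
      smul_mul_assoc, one_mul]

section

variable {R T M : Type} [CommRing R] [CommRing T] [Algebra R T] [AddCommGroup M] [Module R M]
  [IsLocalRing T]

theorem relation (gM : GQ →* Module.End R M) (ρ : GaloisRepAdic T) (S : Finset ℕ)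
    (hcont : ∃ L : IntermediateField ℚ (AlgebraicClosure ℚ), FiniteDimensional ℚ L ∧
      ∀ σ : GQ, (∀ x ∈ L, σ x = x) → gM σ = 1)
    (hfrob : ∀ ℓ : ℕ, ℓ.Prime → ℓ ∉ S → ∃ a : R,
      ∀ P : ValuationSubring (AlgebraicClosure ℚ), P.LiesOverPrime ℓ →
      ∀ τ : GQ, P.IsFrobeniusAt τ ℓ →
        gM τ * gM τ - a • gM τ + (ℓ : R) • (1 : Module.End R M) = 0 ∧
        LinearMap.charpoly (ρ.ρ τ) = X ^ 2 - C (algebraMap R T a) * X + C ((ℓ : T)))
    (n : ℕ) (hn : ∀ t ∈ maximalIdeal T ^ n, ∀ x : T ⊗[R] M, t • x = 0) (g : GQ) :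
    bcHom T gM g + (LinearMap.det (ρ.ρ g)) • bcHom T gM g⁻¹ =
      LinearMap.trace T ρ.V (ρ.ρ g) • (1 : Module.End T (T ⊗[R] M)) := by
  obtain ⟨L₁, hL₁, h₁⟩ := ρ.isAdicContinuous n
  obtain ⟨L₂, hL₂, h₂⟩ := hcont
  obtain ⟨ℓ, hℓ, hℓS, P, hP, -, τ, hτ, ⟨j, hj⟩, -⟩ :=
    FrobDensity.exists_frobenius_pow_eq (L₁ ⊔ L₂)
      (IntermediateField.finiteDimensional_sup L₁ L₂) g S
  obtain ⟨a, ha⟩ := hfrob ℓ hℓ hℓS
  obtain ⟨hrel, hchar⟩ := ha P hP τ hτ
  -- the relation for `τ`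
  have hinv : ∀ σ : GQ, bcHom T gM σ * bcHom T gM σ⁻¹ = 1 := fun σ => by
    rw [← map_mul, mul_inv_cancel, map_one]
  have hinv' : ∀ σ : GQ, bcHom T gM σ⁻¹ * bcHom T gM σ = 1 := fun σ => by
    rw [← map_mul, inv_mul_cancel, map_one]
  have hrel' : gM τ + (ℓ : R) • gM τ⁻¹ = a • (1 : Module.End R M) := by
    have h3 := congrArg (· * gM τ⁻¹) hrel
    simp only [add_mul, sub_mul, zero_mul, smul_mul_assoc, one_mul, mul_assoc] at h3
    rw [← map_mul, mul_inv_cancel, map_one, mul_one, sub_add_eq_add_sub, sub_eq_zero] at h3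
    exact h3
  have hrelT : bcHom T gM τ + (ℓ : T) • bcHom T gM τ⁻¹ =
      (algebraMap R T a) • (1 : Module.End T (T ⊗[R] M)) := by
    refine LinearMap.ext fun z => ?_
    induction z using TensorProduct.induction_on with
    | zero => simp
    | add x y hx hy => rw [map_add, hx, hy, map_add]
    | tmul t x =>
      rw [LinearMap.add_apply, LinearMap.smul_apply, LinearMap.smul_apply, Module.End.one_apply,
        bcHom_tmul, bcHom_tmul]
      have h4 := congrArg (fun f : Module.End R M => f x) hrel'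
      simp only [LinearMap.add_apply, LinearMap.smul_apply, Module.End.one_apply] at h4
      have h5 : (ℓ : T) • (t ⊗ₜ[R] gM τ⁻¹ x) = t ⊗ₜ[R] ((ℓ : R) • gM τ⁻¹ x) := by
        rw [TensorProduct.tmul_smul, ← algebraMap_smul T (ℓ : R), map_natCast]
      have h6 : (algebraMap R T a) • (t ⊗ₜ[R] x) = t ⊗ₜ[R] (a • x) := by
        rw [TensorProduct.tmul_smul, ← algebraMap_smul T a]
      rw [h5, h6, ← TensorProduct.tmul_add, h4]
  have hxy : bcHom T gM τ * ((ℓ : T) • bcHom T gM τ⁻¹) =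
      (ℓ : T) • (1 : Module.End T (T ⊗[R] M)) := by
    rw [mul_smul_comm, hinv]
  have hyx : ((ℓ : T) • bcHom T gM τ⁻¹) * bcHom T gM τ =
      (ℓ : T) • (1 : Module.End T (T ⊗[R] M)) := by
    rw [smul_mul_assoc, hinv']
  have hpow := pow_add_pow_eq_lucas (bcHom T gM τ) ((ℓ : T) • bcHom T gM τ⁻¹)
    (algebraMap R T a) (ℓ : T) (hxy.trans hyx.symm) hrelT hxy j
  -- comparison of `τ ^ j` and `g`
  have hfix : ∀ x ∈ L₂, (g⁻¹ * τ ^ j) x = x := by
    intro x hx
    rw [AlgEquiv.mul_apply, hj x ((le_sup_right : L₂ ≤ L₁ ⊔ L₂) hx)]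
    exact g.symm_apply_apply x
  have hbc : bcHom T gM (τ ^ j) = bcHom T gM g := by
    have h3 : gM (g⁻¹ * τ ^ j) = 1 := h₂ _ hfix
    have h4 : gM (τ ^ j) = gM g := by
      have h5 := congrArg (gM g * ·) h3
      simp only [mul_one] at h5
      rw [← map_mul, mul_inv_cancel_left] at h5
      exact h5
    refine LinearMap.ext fun z => ?_
    induction z using TensorProduct.induction_on with
    | zero => simp
    | add x y hx hy => rw [map_add, hx, hy, map_add]
    | tmul t x => rw [bcHom_tmul, bcHom_tmul, h4]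
  have hbc' : bcHom T gM (τ ^ j)⁻¹ = bcHom T gM g⁻¹ := by
    calc bcHom T gM (τ ^ j)⁻¹ = bcHom T gM (τ ^ j)⁻¹ * (bcHom T gM g * bcHom T gM g⁻¹) := by
          rw [hinv, mul_one]
      _ = (bcHom T gM (τ ^ j)⁻¹ * bcHom T gM (τ ^ j)) * bcHom T gM g⁻¹ := by
          rw [hbc, mul_assoc]
      _ = bcHom T gM g⁻¹ := by rw [hinv', one_mul]
  have hmod : ∀ v, ρ.ρ g v - ρ.ρ (τ ^ j) v ∈ (maximalIdeal T ^ n) • (⊤ : Submodule T ρ.V) :=
    sub_mem_of_forall_eq ρ n L₁ h₁ g (τ ^ j) fun x hx => hj x ((le_sup_left : L₁ ≤ L₁ ⊔ L₂) hx)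
  have htr := trace_sub_mem ρ.finrank_eq _ _ _ hmod
  have hdet := det_sub_mem ρ.finrank_eq _ _ _ hmod
  have hdetτ : LinearMap.det (ρ.ρ (τ ^ j)) = (ℓ : T) ^ j := by
    have h0 := hchar
    rw [FrobDensity.charpoly_eq_of_finrank ρ.finrank_eq] at h0
    rw [map_pow, map_pow, (FrobDensity.eq_of_charpoly_eq h0).2]
  have htrτ : LinearMap.trace T ρ.V (ρ.ρ (τ ^ j)) = lucas (algebraMap R T a) (ℓ : T) j := by
    rw [map_pow, trace_pow_eq_lucas ρ.finrank_eq _ hchar]
  rw [_root_.smul_pow, ← map_pow, ← map_pow, inv_pow, hbc, hbc', ← hdetτ, ← htrτ] at hpow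
  refine LinearMap.ext fun z => ?_
  have h7 := congrArg (fun f : Module.End T (T ⊗[R] M) => f z) hpow
  simp only [LinearMap.add_apply, LinearMap.smul_apply, Module.End.one_apply] at h7 ⊢
  have h8 := sub_eq_zero.1 ((_root_.sub_smul (LinearMap.trace T ρ.V (ρ.ρ g))
    (LinearMap.trace T ρ.V (ρ.ρ (τ ^ j))) z).symm.trans (hn _ htr z))
  have h9 := sub_eq_zero.1 ((_root_.sub_smul (LinearMap.det (ρ.ρ g))
    (LinearMap.det (ρ.ρ (τ ^ j))) (bcHom T gM g⁻¹ z)).symm.trans
      (hn _ hdet (bcHom T gM g⁻¹ z)))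
  rw [h8, h9]
  exact h7

end

end Fermat.Agent.FlatT
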