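import Fermat.Agent.FlatT.Quot

/-!
Base change of finite flat Galois modules with commuting operators.
-/

set_option autoImplicit false
set_option linter.unusedSectionVars false

open Module GaloisRep Fermat.Agent.HopfOrder
open scoped TensorProduct

namespace Fermat.Agent.FlatT

section

variable {R T M : Type} [CommRing R] [CommRing T] [Algebra R T] [AddCommGroup M] [Module R M]

/-- Base change of a representation. -/
noncomputable def bcHom (T : Type) [CommRing T] [Algebra R T] {G : Type*} [Group G]
    (τ : G →* Module.End R M) : G →* Module.End T (T ⊗[R] M) where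
  toFun g := (τ g).baseChange T
  map_one' := by rw [map_one, LinearMap.baseChange_one]
  map_mul' g h := by rw [map_mul, LinearMap.baseChange_mul]

theorem bcHom_tmul {G : Type*} [Group G] (τ : G →* Module.End R M) (g : G) (t : T) (x : M) :
    bcHom T τ g (t ⊗ₜ x) = t ⊗ₜ τ g x := rfl

variable (p m : ℕ) [Fact p.Prime] (hM : ∀ x : M, p ^ m • x = 0)

/-- The generating map. -/
noncomputable def genMap [Fintype (T ⧸ Ideal.span {((p : T) ^ m)})] :
    (T ⧸ Ideal.span {((p : T) ^ m)} → M) →+ T ⊗[R] M :=
  AddMonoidHom.mk' (fun x => ∑ j, (Quotient.out j : T) ⊗ₜ[R] x j) fun x y => by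
    simp only [Pi.add_apply, TensorProduct.tmul_add, Finset.sum_add_distrib]

include hM in
theorem genMap_surjective [Fintype (T ⧸ Ideal.span {((p : T) ^ m)})] :
    Function.Surjective (genMap (R := R) (T := T) (M := M) p m) := by
  classical
  intro z
  induction z using TensorProduct.induction_on with
  | zero => exact ⟨0, map_zero _⟩
  | add a b ha hb =>
    obtain ⟨x, rfl⟩ := ha
    obtain ⟨y, rfl⟩ := hb
    exact ⟨x + y, map_add _ _ _⟩
  | tmul t x =>
    refine ⟨Pi.single (Ideal.Quotient.mk _ t) x, ?_⟩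
    have h1 : genMap (R := R) (T := T) (M := M) p m
        (Pi.single (Ideal.Quotient.mk (Ideal.span {((p : T) ^ m)}) t) x) =
        (Quotient.out (Ideal.Quotient.mk (Ideal.span {((p : T) ^ m)}) t) : T) ⊗ₜ[R] x := by
      unfold genMap
      rw [AddMonoidHom.mk'_apply]
      refine (Finset.sum_eq_single (Ideal.Quotient.mk (Ideal.span {((p : T) ^ m)}) t)
        ?_ ?_).trans ?_
      · intro j _ hj
        rw [Pi.single_eq_of_ne hj, TensorProduct.tmul_zero]
      · intro h
        exact absurd (Finset.mem_univ _) h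
      · rw [Pi.single_eq_same]
    rw [h1]
    have h2 : Ideal.Quotient.mk (Ideal.span {((p : T) ^ m)})
        (Quotient.out (Ideal.Quotient.mk (Ideal.span {((p : T) ^ m)}) t) : T) =
        Ideal.Quotient.mk (Ideal.span {((p : T) ^ m)}) t := Quotient.out_eq' _
    rw [Ideal.Quotient.eq, Ideal.mem_span_singleton] at h2
    obtain ⟨c, hc⟩ := h2
    rw [← sub_eq_zero, ← TensorProduct.sub_tmul, hc]
    have h3 : ((p : T) ^ m * c) ⊗ₜ[R] x = c ⊗ₜ[R] ((p ^ m : ℕ) • x) := by
      rw [TensorProduct.tmul_smul, TensorProduct.smul_tmul', nsmul_eq_mul, Nat.cast_pow]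
    rw [h3, hM, TensorProduct.tmul_zero]

include hM in
theorem finite_tensor [Finite M] [Finite (T ⧸ Ideal.span {((p : T) ^ m)})] :
    Finite (T ⊗[R] M) := by
  have := Fintype.ofFinite (T ⧸ Ideal.span {((p : T) ^ m)})
  exact Finite.of_surjective _ (genMap_surjective p m hM)

include hM in
theorem isFlatMod_tensor [Finite M] [Finite (T ⧸ Ideal.span {((p : T) ^ m)})]
    (τ : GQ →* Module.End R M) (hflat : @IsFlatMod p M _ (actOf τ)) :
    @IsFlatMod p (T ⊗[R] M) _ (actOf (bcHom T τ)) := by
  let _ := actOf τ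
  let _ := actOf (bcHom T τ)
  let _ := Fintype.ofFinite (T ⧸ Ideal.span {((p : T) ^ m)})
  have h1 : IsFlatMod p (T ⧸ Ideal.span {((p : T) ^ m)} → M) := IsFlatMod.pi fun _ => hflat
  refine h1.of_surjective (genMap (R := R) (T := T) (M := M) p m) (genMap_surjective p m hM) ?_
  intro g x
  change genMap p m (g • x) = bcHom T τ g (genMap p m x)
  unfold genMap
  simp only [AddMonoidHom.mk'_apply, map_sum]
  exact Finset.sum_congr rfl fun j _ => rfl

end

end Fermat.Agent.FlatT
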